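/-
Laurent series over a complete base inside `ℂ`: the fields of series, the coefficientwise
retraction, and the Gauss valuation.
-/
import Fermat.Agent.GalRep.Level.ConjFun
import Fermat.Agent.GalRep.Model.Sheets

set_option autoImplicit false

noncomputable section

namespace Fermat.Agent.ModField

open Fermat.Agent.GalRep
open IsLocalRing

/-- A ring inside `ℂ` containing the `M`-th roots of unity. -/
structure Emb (O : Type) [CommRing O] (M : ℕ) where
  φ : O →+* ℂ
  inj : Function.Injective φ
  ζ : O
  map_ζ : φ ζ = Model.zetaC M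

variable {O : Type} [CommRing O] {M : ℕ} (E : Emb O M)

/-- The constants of the base: the subfield generated by its image. -/
def Emb.K : Subfield ℂ := Subfield.closure (Set.range E.φ)

theorem Emb.φ_mem (a : O) : E.φ a ∈ E.K := Subfield.subset_closure ⟨a, rfl⟩

theorem Emb.zetaC_mem : Model.zetaC M ∈ E.K := E.map_ζ ▸ E.φ_mem E.ζ

/-! ## Series with coefficients in a subfield -/

/-- Series with coefficients in `K`. -/
def kSer (K : Subfield ℂ) : Subfield (LaurentSeries ℂ) := (lmap K.subtype).fieldRange

theorem mem_kSer {K : Subfield ℂ} {f : LaurentSeries ℂ} :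
    f ∈ kSer K ↔ ∀ m, f.coeff m ∈ K := by
  constructor
  · rintro ⟨g, rfl⟩ m
    exact (g.coeff m).2
  · intro h
    refine ⟨{ coeff := fun m => ⟨f.coeff m, h m⟩, isPWO_support' := f.isPWO_support.mono ?_ }, ?_⟩
    · intro m hm hm'
      exact hm (Subtype.ext hm')
    · ext m; rfl

variable (K : Subfield ℂ)

/-- A retraction of `ℂ` onto `K`, linear over `K`. -/
theorem exists_retract : ∃ p : ℂ →ₗ[K] ℂ, (∀ c, p c ∈ K) ∧ ∀ c ∈ K, p c = c := by
  obtain ⟨g, hg⟩ := (Algebra.linearMap K ℂ).exists_leftInverse_of_injective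
    (LinearMap.ker_eq_bot.mpr (algebraMap K ℂ).injective)
  refine ⟨(Algebra.linearMap K ℂ).comp g, fun c => (g c).2, fun c hc => ?_⟩
  have := LinearMap.congr_fun hg ⟨c, hc⟩
  show algebraMap K ℂ (g (algebraMap K ℂ ⟨c, hc⟩)) = _
  simp only [LinearMap.coe_comp, Function.comp_apply, Algebra.linearMap_apply,
    LinearMap.id_apply] at this
  rw [this]; rfl

/-- The chosen retraction. -/
def retract : ℂ →ₗ[K] ℂ := (exists_retract K).choose

theorem retract_mem (c : ℂ) : retract K c ∈ K := (exists_retract K).choose_spec.1 c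

theorem retract_of_mem {c : ℂ} (hc : c ∈ K) : retract K c = c :=
  (exists_retract K).choose_spec.2 c hc

theorem retract_mul {a : ℂ} (ha : a ∈ K) (c : ℂ) : retract K (a * c) = a * retract K c :=
  (retract K).map_smul ⟨a, ha⟩ c

/-- The retraction on coefficients. -/
def pcoef : LaurentSeries ℂ →+ LaurentSeries ℂ where
  toFun f := f.map (retract K).toAddMonoidHom
  map_zero' := by ext; simp
  map_add' f g := by ext; simp

theorem pcoef_coeff (f : LaurentSeries ℂ) (m : ℤ) :
    (pcoef K f).coeff m = retract K (f.coeff m) := rfl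

theorem pcoef_mem (f : LaurentSeries ℂ) : pcoef K f ∈ kSer K :=
  mem_kSer.mpr fun _ => retract_mem K _

theorem pcoef_of_mem {f : LaurentSeries ℂ} (hf : f ∈ kSer K) : pcoef K f = f := by
  ext m; exact retract_of_mem K (mem_kSer.mp hf m)

theorem pcoef_mul {s : LaurentSeries ℂ} (hs : s ∈ kSer K) (f : LaurentSeries ℂ) :
    pcoef K (s * f) = s * pcoef K f := by
  classical
  ext m
  have hsub : (pcoef K f).support ⊆ f.support := fun i hi h => hi (by
    rw [pcoef_coeff, h, map_zero])
  rw [pcoef_coeff, HahnSeries.coeff_mul,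
    HahnSeries.coeff_mul_right' (y := pcoef K f) f.isPWO_support hsub, map_sum]
  exact Finset.sum_congr rfl fun ij _ => by
    rw [retract_mul K (mem_kSer.mp hs _), pcoef_coeff]

theorem pcoef_C (c : ℂ) : pcoef K (HahnSeries.C c) = HahnSeries.C (retract K c) := by
  ext m
  rw [pcoef_coeff, HahnSeries.C_apply, HahnSeries.C_apply, HahnSeries.coeff_single,
    HahnSeries.coeff_single]
  split_ifs <;> simp

variable {K}

/-- The retraction of a polynomial expression stays in any ring containing its arguments. -/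
theorem pcoef_biEval_mem {T : Subring (LaurentSeries ℂ)} (hK : ∀ c ∈ K, HahnSeries.C c ∈ T)
    (hT : ∀ x ∈ T, x ∈ kSer K) {s r : LaurentSeries ℂ} (hs : s ∈ T) (hr : r ∈ T)
    (P : Polynomial (Polynomial ℂ)) : pcoef K (biEval s r P) ∈ T := by
  induction P using Polynomial.induction_on' with
  | add p q hp hq => rw [map_add, map_add]; exact add_mem hp hq
  | monomial a Q =>
    induction Q using Polynomial.induction_on' with
    | add p q hp hq => rw [map_add, map_add, map_add]; exact add_mem hp hq
    | monomial b c =>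
      have e : biEval s r (Polynomial.monomial a (Polynomial.monomial b c)) =
          (s ^ b * r ^ a) * HahnSeries.C c := by
        simp [biEval, Polynomial.aeval_monomial, HahnSeries.algebraMap_apply']
        rw [← HahnSeries.C_mul_eq_smul, HahnSeries.C_apply]
        ring
      have hm : s ^ b * r ^ a ∈ T := mul_mem (pow_mem hs _) (pow_mem hr _)
      rw [e, pcoef_mul K (hT _ hm), pcoef_C]
      exact mul_mem hm (hK _ (retract_mem K c))

/-! ## Fractions of power series over the base -/

/-- Power series over `O` as complex Laurent series. -/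
def Emb.gO : PowerSeries O →+* LaurentSeries ℂ :=
  (HahnSeries.ofPowerSeries ℤ ℂ).comp (PowerSeries.map E.φ)

theorem Emb.gO_injective : Function.Injective E.gO := fun a b h => by
  simp only [Emb.gO, RingHom.comp_apply] at h
  exact PowerSeries.map_injective E.φ E.inj (HahnSeries.ofPowerSeries_injective h)

variable [IsDomain O]

/-- Fractions of power series over `O`, as complex Laurent series. -/
def Emb.toC : Model.SeriesField O →+* LaurentSeries ℂ := IsFractionRing.lift E.gO_injective

theorem Emb.toC_algebraMap (g : PowerSeries O) :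
    E.toC (algebraMap (PowerSeries O) (Model.SeriesField O) g) = E.gO g :=
  IsFractionRing.lift_algebraMap E.gO_injective g

theorem Emb.toC_injective : Function.Injective E.toC := E.toC.injective

/-- The field of such series. -/
def Emb.sFld : Subfield (LaurentSeries ℂ) := E.toC.fieldRange

theorem Emb.gO_mem (g : PowerSeries O) : E.gO g ∈ E.sFld := ⟨_, E.toC_algebraMap g⟩

theorem Emb.C_mem {c : ℂ} (hc : c ∈ E.K) : HahnSeries.C c ∈ E.sFld := by
  have h : E.K ≤ E.sFld.comap (HahnSeries.C : ℂ →+* LaurentSeries ℂ) := by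
    rw [Emb.K, Subfield.closure_le]
    rintro _ ⟨a, rfl⟩
    refine ⟨algebraMap (PowerSeries O) (Model.SeriesField O) (PowerSeries.C a), ?_⟩
    rw [E.toC_algebraMap, Emb.gO, RingHom.comp_apply, PowerSeries.map_C, HahnSeries.ofPowerSeries_C]
  exact h hc

omit [IsDomain O] in
theorem Emb.gO_kSer (g : PowerSeries O) : E.gO g ∈ kSer E.K := mem_kSer.mpr fun m => by
  rw [Emb.gO, RingHom.comp_apply, HahnSeries.ofPowerSeries_apply]
  by_cases hm : ∃ k : ℕ, (k : ℤ) = m
  · obtain ⟨k, rfl⟩ := hm
    rw [← HahnSeries.ofPowerSeries_apply, HahnSeries.ofPowerSeries_apply_coeff,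
      PowerSeries.coeff_map]
    exact E.φ_mem _
  · rw [HahnSeries.embDomain_of_notMem_range]
    · exact zero_mem _
    · rintro ⟨k, hk⟩; exact hm ⟨k, hk⟩

theorem Emb.sFld_le : E.sFld ≤ kSer E.K := by
  rintro _ ⟨x, rfl⟩
  obtain ⟨a, b, -, rfl⟩ := IsFractionRing.div_surjective (A := PowerSeries O) x
  rw [map_div₀, E.toC_algebraMap, E.toC_algebraMap]
  exact div_mem (E.gO_kSer a) (E.gO_kSer b)

theorem Emb.int_mem {P : PowerSeries ℂ} (hP : P ∈ Hecke.intSeries) :
    HahnSeries.ofPowerSeries ℤ ℂ P ∈ E.sFld := by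
  obtain ⟨Q, rfl⟩ := hP
  convert E.gO_mem (PowerSeries.map (Int.castRingHom O) Q) using 1
  rw [Emb.gO, RingHom.comp_apply]
  congr 1
  ext k
  simp

end Fermat.Agent.ModField
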