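/-
Modular functions of level `Γ(M)` with series over the base: stability under translations,
bounded denominators, conjugation, invariants.
-/
import Fermat.Agent.Models.Field.Series

set_option autoImplicit false

noncomputable section

namespace Fermat.Agent.ModField

open UpperHalfPlane CongruenceSubgroup Polynomial
open Fermat.Agent.GalRep
open Fermat.Agent.GalRep.Level
open scoped MatrixGroups

variable {O : Type} [CommRing O] [IsDomain O] {M : ℕ} [NeZero M] (E : Emb O M)

theorem expand_ofPowerSeries_int {a : ℕ} (ha : a ≠ 0) {P : PowerSeries ℂ}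
    (hP : P ∈ Hecke.intSeries) :
    expand a ha (HahnSeries.ofPowerSeries ℤ ℂ P) ∈ E.sFld := by
  obtain ⟨Q, rfl⟩ := hP
  convert E.gO_mem (PowerSeries.expand a ha (PowerSeries.map (Int.castRingHom O) Q)) using 1
  rw [Emb.gO, RingHom.comp_apply, PowerSeries.map_expand]
  have h1 : PowerSeries.map E.φ (PowerSeries.map (Int.castRingHom O) Q) =
      PowerSeries.map (Int.castRingHom ℂ) Q := by ext k; simp
  rw [h1]
  set P := PowerSeries.map (Int.castRingHom ℂ) Q
  ext m
  by_cases hm : (a : ℤ) ∣ m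
  · obtain ⟨t, rfl⟩ := hm
    rw [expand_coeff_mul]
    by_cases ht : ∃ k : ℕ, (k : ℤ) = t
    · obtain ⟨k, rfl⟩ := ht
      rw [HahnSeries.ofPowerSeries_apply_coeff, ← Nat.cast_mul,
        HahnSeries.ofPowerSeries_apply_coeff, PowerSeries.coeff_expand_mul]
    · rw [HahnSeries.ofPowerSeries_apply, HahnSeries.ofPowerSeries_apply,
        HahnSeries.embDomain_of_notMem_range, HahnSeries.embDomain_of_notMem_range]
      · rintro ⟨k, hk⟩
        exact ht ⟨k / a, by
          have h2 : (a : ℤ) * t = (k : ℤ) := hk.symm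
          have ha' : (a : ℤ) ≠ 0 := by exact_mod_cast ha
          rw [Int.natCast_div, ← h2, Int.mul_ediv_cancel_left _ ha']⟩
      · rintro ⟨k, hk⟩; exact ht ⟨k, hk⟩
  · rw [expand_coeff_of_not_dvd _ _ _ _ hm, HahnSeries.ofPowerSeries_apply]
    by_cases hk : ∃ k : ℕ, (k : ℤ) = m
    · obtain ⟨k, rfl⟩ := hk
      rw [← HahnSeries.ofPowerSeries_apply, HahnSeries.ofPowerSeries_apply_coeff,
        PowerSeries.coeff_expand_of_not_dvd a ha _ fun h => hm (Int.natCast_dvd_natCast.mpr h)]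
    · rw [HahnSeries.embDomain_of_notMem_range]
      rintro ⟨k, hk'⟩; exact hk ⟨k, hk'⟩

theorem jqN_mem : jqN M ∈ E.sFld := by
  set a := expand (K := ℂ) M (NeZero.ne M)
  set D := HahnSeries.ofPowerSeries ℤ ℂ (Hecke.qExp ((1728 : ℂ) • Hecke.delta))
  set F4 := HahnSeries.ofPowerSeries ℤ ℂ (Hecke.qExp Hecke.eis4)
  have hD : D ≠ 0 := by
    rw [ne_eq, map_eq_zero_iff _ HahnSeries.ofPowerSeries_injective,
      map_eq_zero_iff _ Hecke.qExp_injective, smul_eq_zero, not_or]
    exact ⟨by norm_num, fun h => ModularForm.discriminant_ne_zero UpperHalfPlane.I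
      (congrFun (congrArg Subtype.val h) UpperHalfPlane.I)⟩
  have hrel : jq * D = HahnSeries.C (1728 : ℂ) * F4 ^ 3 := by
    refine ((hasQSeries_jq.mul (hasQSeries_qExp _)).congr (.of_forall fun τ => ?_)).unique one_pos
      (((hasQSeries_qExp Hecke.eis4).pow 3).smul 1728)
    show Period.jFun τ * ((1728 : ℂ) * ModularForm.discriminant τ) = 1728 * ModularForm.E₄ τ ^ 3
    simp only [Period.jFun]
    field_simp [ModularForm.discriminant_ne_zero τ]
  have h1728 : ((1728 : ℂ)) ∈ E.K := by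
    have := E.φ_mem (1728 : O)
    rwa [map_ofNat] at this
  rw [jqN_eq, show jq = HahnSeries.C (1728 : ℂ) * F4 ^ 3 / D by rw [← hrel, mul_div_cancel_right₀ _ hD],
    map_div₀, map_mul, map_pow]
  refine div_mem (mul_mem ?_ (pow_mem (expand_ofPowerSeries_int E _ Hecke.eis4_int) _))
    (expand_ofPowerSeries_int E _ Hecke.scaled_delta_int)
  have hC : expand M (NeZero.ne M) (HahnSeries.C (1728 : ℂ)) = HahnSeries.C (1728 : ℂ) := by
    ext m
    by_cases hm : (M : ℤ) ∣ m
    · obtain ⟨j, rfl⟩ := hm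
      rw [expand_coeff_mul]
      rcases eq_or_ne j 0 with rfl | hj
      · simp
      · simp [hj, NeZero.ne M]
    · rw [expand_coeff_of_not_dvd _ _ _ _ hm]
      have : m ≠ 0 := fun h0 => hm (h0 ▸ dvd_zero _)
      simp [this]
  rw [hC]
  exact E.C_mem h1728

theorem pSer_mem (u : ℤ × ℤ) :
    HahnSeries.ofPowerSeries ℤ ℂ (Model.pSer M (Model.zetaC M) u) ∈ E.sFld := by
  classical
  set z := Model.zetaC M with hz
  have hzM : z ^ M = 1 := zetaC_pow M
  have hint : ∀ k : ℤ, ∃ a : O, E.φ a = z ^ k := fun k => by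
    obtain ⟨e, he⟩ : ∃ e : ℕ, (M : ℤ) ∣ k - e := ⟨(k % M).toNat, by
      rw [Int.toNat_of_nonneg (Int.emod_nonneg k (by exact_mod_cast NeZero.ne M))]
      exact Int.dvd_self_sub_emod⟩
    refine ⟨E.ζ ^ e, ?_⟩
    obtain ⟨t, ht⟩ := he
    rw [map_pow, E.map_ζ, ← hz, show k = (M : ℤ) * t + e by linarith,
      zpow_add₀ (show z ≠ 0 from Complex.exp_ne_zero _),
      zpow_mul, zpow_natCast, hzM, one_zpow, one_mul, zpow_natCast]
  choose w hw using hint
  set c₀ := (Model.pSer M z u).coeff 0 with hc₀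
  let tail : PowerSeries O := PowerSeries.mk fun n => if n = 0 then 0 else
    ∑ k ∈ n.divisors, (k : O) *
      ((if (M : ℤ) ∣ ((n / k : ℕ) : ℤ) - u.1 then w (u.2 * k) else 0) +
        (if (M : ℤ) ∣ ((n / k : ℕ) : ℤ) + u.1 then w (-(u.2 * k)) else 0))
  have hsplit : Model.pSer M z u = PowerSeries.C c₀ + PowerSeries.map E.φ tail := by
    ext n
    rw [map_add, PowerSeries.coeff_map, PowerSeries.coeff_C]
    rcases eq_or_ne n 0 with rfl | hn
    · simp [tail, hc₀]
    · simp only [tail, Model.pSer, PowerSeries.coeff_mk, if_neg hn, zero_add, map_sum, map_mul,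
        map_natCast, map_add, apply_ite E.φ, map_zero, hw]
  rw [hsplit, map_add, HahnSeries.ofPowerSeries_C]
  refine add_mem (E.C_mem ?_) (E.gO_mem _)
  rw [hc₀, Model.pSer, PowerSeries.coeff_mk, if_pos rfl]
  split_ifs
  · exact div_mem (zpow_mem E.zetaC_mem _)
      (pow_mem (sub_mem (one_mem _) (zpow_mem E.zetaC_mem _)) _)
  · exact zero_mem _

theorem wtTwo_series : ∃ s : LaurentSeries ℂ, HasQSeries 1 wtTwo s ∧
    expand M (NeZero.ne M) s ∈ E.sFld := by
  set f := HahnSeries.ofPowerSeries ℤ ℂ (Hecke.qExp (Hecke.eis4 * Hecke.eis6)) with hf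
  set g := HahnSeries.ofPowerSeries ℤ ℂ (Hecke.qExp ((1728 : ℂ) • Hecke.delta)) with hg
  obtain ⟨s, hs, -⟩ := exists_series_wtTwo
  have hg0 : g ≠ 0 := by
    rw [hg, ne_eq, map_eq_zero_iff _ HahnSeries.ofPowerSeries_injective,
      map_eq_zero_iff _ Hecke.qExp_injective, smul_eq_zero, not_or]
    exact ⟨by norm_num, fun h => ModularForm.discriminant_ne_zero UpperHalfPlane.I
      (congrFun (congrArg Subtype.val h) UpperHalfPlane.I)⟩
  have hrel : s * g = f := by
    refine ((hs.mul (hasQSeries_qExp _)).congr (.of_forall fun τ => ?_)).unique one_pos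
      (hasQSeries_qExp (Hecke.eis4 * Hecke.eis6))
    show wtTwo τ * (1728 * ModularForm.discriminant τ) = ModularForm.E₄ τ * ModularForm.E₆ τ
    have hD := ModularForm.discriminant_ne_zero τ
    rw [wtTwo]; field_simp
  refine ⟨s, hs, ?_⟩
  rw [show s = f / g by rw [← hrel, mul_div_cancel_right₀ _ hg0], map_div₀]
  exact div_mem (expand_ofPowerSeries_int E _ (by
      rw [map_mul]; exact Hecke.intSeries.mul_mem Hecke.eis4_int Hecke.eis6_int))
    (expand_ofPowerSeries_int E _ Hecke.scaled_delta_int)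

/-- Functions all of whose translates have series in `E.sFld`. -/
def bddMF : Subring (MF M) := ⨅ g : SL(2, ℤ), E.sFld.toSubring.comap
  ((serAlg M).toRingHom.comp (shift M g).toRingHom)

theorem mem_bddMF {φ : MF M} : φ ∈ bddMF E ↔ ∀ g, serAlg M (shift M g φ) ∈ E.sFld := by
  simp [bddMF, Subring.mem_iInf]

theorem shift_mem_bddMF {φ : MF M} (h : φ ∈ bddMF E) (g : SL(2, ℤ)) :
    shift M g φ ∈ bddMF E := mem_bddMF E |>.mpr fun g' => by
  rw [shift_shift]; exact mem_bddMF E |>.mp h _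

theorem fricke_mem (u : ℤ × ℤ) (hu : Model.NZ M u) : fricke u hu ∈ bddMF E := by
  rw [mem_bddMF]
  intro g
  obtain ⟨s, hs, hsE⟩ := wtTwo_series E
  rw [shift_fricke]
  set t := Model.rowMul u g
  have htnz : Model.NZ M t := nz_rowMul hu g
  have e : serAlg M (fricke t htnz) = _ :=
    (hasQSeries_serHom (fricke t htnz)).unique (NeZero.pos M) (hasQSeries_fU htnz hs)
  rw [e]
  refine mul_mem hsE (sum_mem fun v _ => ?_)
  rw [map_sub]
  exact sub_mem (pSer_mem E _) (pSer_mem E _)

theorem jMF_mem : jMF (Gamma M) ∈ bddMF E := by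
  rw [mem_bddMF]
  intro g
  rw [show shift M g (jMF (Gamma M)) = jMF (Gamma M) from
    Subtype.ext (funext fun τ => Period.jFun_smul g τ)]
  exact jqN_mem E

theorem algebraMap_mem_bddMF {c : ℂ} (hc : c ∈ E.K) : algebraMap ℂ (MF M) c ∈ bddMF E := by
  rw [mem_bddMF]
  intro g
  rw [AlgHom.commutes, AlgHom.commutes]
  simpa [HahnSeries.algebraMap_apply'] using E.C_mem hc

theorem exists_gen_mem : ∃ r : MF M, Gen r ∧ r ∈ bddMF E := by
  obtain ⟨r, hr, -, hT⟩ := exists_gen M
  exact ⟨r, hr, hT _ (fricke_mem E)⟩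

theorem exists_multiplier {r : MF M} (hr : r ∈ bddMF E) :
    biEval (jMF (Gamma M)) r (derivative (minP r)) ∈ bddMF E := by
  classical
  rw [biEval_minP_deriv]
  refine prod_mem fun y hy => sub_mem hr ?_
  obtain ⟨g, rfl⟩ := mem_orbitF.mp (Finset.mem_of_mem_erase hy)
  exact shift_mem_bddMF E hr g

/-- Series over the constants force bounded denominators at every cusp. -/
theorem bdd_of_kSer {φ : MF M} (h : serAlg M φ ∈ kSer E.K) : φ ∈ bddMF E := by
  obtain ⟨r, hr, hrE⟩ := exists_gen_mem E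
  obtain ⟨P, hP⟩ := exists_interpM hr φ
  set D := biEval (jMF (Gamma M)) r (derivative (minP r))
  have hD : D ∈ bddMF E := exists_multiplier E hrE
  have hD0 : D ≠ 0 := biEval_minP_deriv_ne_zero r
  -- the polynomials in `j` and `r` over the constants
  let T : Subring (MF M) := Subring.closure
    ((Set.range fun c : E.K => algebraMap ℂ (MF M) c) ∪ {jMF (Gamma M), r})
  have hTle : T ≤ bddMF E := by
    rw [Subring.closure_le]
    rintro x (⟨c, rfl⟩ | rfl | rfl)
    · exact algebraMap_mem_bddMF E c.2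
    · exact jMF_mem E
    · exact hrE
  have hTs : ∀ x ∈ T.map (serAlg M).toRingHom, x ∈ kSer E.K := by
    rintro _ ⟨x, hx, rfl⟩
    have := (mem_bddMF E).mp (hTle hx) 1
    rw [shift_one] at this
    exact E.sFld_le this
  have hsD : serAlg M (φ * D) ∈ kSer E.K := by
    rw [map_mul]
    have := (mem_bddMF E).mp hD 1
    rw [shift_one] at this
    exact mul_mem h (E.sFld_le this)
  have hmem : pcoef E.K (serAlg M (φ * D)) ∈ T.map (serAlg M).toRingHom := by
    rw [hP, map_biEval]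
    refine pcoef_biEval_mem (fun c hc => ?_) hTs ?_ ?_ P
    · exact ⟨algebraMap ℂ (MF M) c, Subring.subset_closure (Or.inl ⟨⟨c, hc⟩, rfl⟩),
        by simp [HahnSeries.algebraMap_apply']⟩
    · exact ⟨jMF (Gamma M), Subring.subset_closure (Or.inr (Or.inl rfl)), rfl⟩
    · exact ⟨r, Subring.subset_closure (Or.inr (Or.inr rfl)), rfl⟩
  rw [pcoef_of_mem E.K hsD] at hmem
  obtain ⟨x, hx, hxe⟩ := hmem
  have hxφ : x = φ * D := serAlg_injective M hxe
  rw [mem_bddMF]
  intro g
  have h2 := (mem_bddMF E).mp (hTle hx) g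
  rw [hxφ, map_mul, map_mul] at h2
  have hne : serAlg M (shift M g D) ≠ 0 := fun h0 =>
    hD0 (shift_injective g ((serAlg_injective M (h0.trans (map_zero _).symm)).trans
      (map_zero _).symm))
  have := div_mem h2 ((mem_bddMF E).mp hD g)
  rwa [mul_div_cancel_right₀ _ hne] at this

theorem kSer_of_bdd {φ : MF M} (h : φ ∈ bddMF E) : serAlg M φ ∈ kSer E.K := by
  have := (mem_bddMF E).mp h 1
  rw [shift_one] at this
  exact E.sFld_le this

/-- A translation invariant function with series over `K` is a polynomial in `j` over `K`. -/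
theorem exists_eval_of_invariant {φ : MF M} (hφ : φ ∈ bddMF E) (h : ∀ g, shift M g φ = φ) :
    ∃ P : Polynomial E.K, φ = aeval (jMF (Gamma M)) (P.map E.K.subtype) := by
  have hmod : IsModFun ⊤ (φ : ℍ → ℂ) := ⟨φ.2.holo, fun γ _ τ =>
    congrFun (congrArg Subtype.val (h γ)) τ, φ.2.cusps⟩
  obtain ⟨P₀, hP₀⟩ := exists_eq_eval_jFun hmod
  have hφP : φ = aeval (jMF (Gamma M)) P₀ := Subtype.ext (funext fun τ => by
    rw [hP₀]
    show _ = (modFuns (Gamma M)).val (aeval (jMF (Gamma M)) P₀) τ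
    rw [← Polynomial.aeval_algHom_apply (modFuns (Gamma M)).val]
    simp [Polynomial.aeval_fn_apply, jMF])
  have hs : serAlg M φ ∈ kSer E.K := kSer_of_bdd E hφ
  refine ⟨P₀.sum fun k c => monomial k (⟨retract E.K c, retract_mem E.K c⟩ : E.K),
    serAlg_injective M ?_⟩
  rw [← pcoef_of_mem E.K hs, hφP, ← aeval_algHom_apply (serAlg M), ← aeval_algHom_apply (serAlg M),
    serAlg_jMF]
  have hj : jqN M ∈ kSer E.K := E.sFld_le (jqN_mem E)
  simp only [Polynomial.sum, Polynomial.map_sum, Polynomial.map_monomial, map_sum]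
  conv_lhs => rw [P₀.as_sum_support, map_sum, map_sum]
  refine Finset.sum_congr rfl fun k _ => ?_
  rw [aeval_monomial, aeval_monomial, mul_comm, pcoef_mul _ (pow_mem hj k)]
  simp [HahnSeries.algebraMap_apply', ← HahnSeries.C_apply, pcoef_C, mul_comm]

/-- Conjugation preserves functions over the base. -/
theorem bdd_of_conjF {σ : ℂ ≃+* ℂ} (hσ : ∀ c ∈ E.K, σ c ∈ E.K) {φ φ' : MF M} (h : φ ∈ bddMF E)
    (hc : ConjF σ φ φ') : φ' ∈ bddMF E := by
  refine bdd_of_kSer E (mem_kSer.mpr fun m => ?_)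
  obtain ⟨g, hg⟩ := exists_conjEq_symm (cycC M σ) (1 : SL(2, ℤ))
  have e := hc g 1 hg
  rw [shift_one] at e
  rw [e, lmap_coeff]
  exact hσ _ (mem_kSer.mp (E.sFld_le ((mem_bddMF E).mp h g)) m)

end Fermat.Agent.ModField
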