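/-
The field of modular functions of level `Γ(M)` with series over the base, its translations,
semilinear automorphisms, expansion, and the invariants.
-/
import Fermat.Agent.Models.Field.Rat
import Fermat.Agent.GalRep.Model.SheetsMk

set_option autoImplicit false
set_option linter.style.haveILetI false

noncomputable section

namespace Fermat.Agent.ModField

open UpperHalfPlane CongruenceSubgroup Polynomial
open Fermat.Agent.GalRep
open Fermat.Agent.GalRep.Level
open scoped MatrixGroups

variable {O : Type} [CommRing O] [IsDomain O] {M : ℕ} [NeZero M] (E : Emb O M)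

/-- The field of modular functions of level `Γ(M)` with series over the base. -/
def Fld : Type := FractionRing (bddMF E)

instance instFieldFld : Field (Fld E) := inferInstanceAs (Field (FractionRing (bddMF E)))

instance instAlgebraBddFld : Algebra (bddMF E) (Fld E) :=
  inferInstanceAs (Algebra (bddMF E) (FractionRing (bddMF E)))

instance instIsFractionRingFld : IsFractionRing (bddMF E) (Fld E) :=
  inferInstanceAs (IsFractionRing (bddMF E) (FractionRing (bddMF E)))

/-- The functions inside the field. -/
def toFld : bddMF E →+* Fld E := algebraMap (bddMF E) (FractionRing (bddMF E))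

theorem toFld_injective : Function.Injective (toFld E) :=
  IsFractionRing.injective (bddMF E) (FractionRing (bddMF E))

theorem exists_eq_div (x : Fld E) :
    ∃ a b : bddMF E, b ≠ 0 ∧ x = toFld E a / toFld E b := by
  obtain ⟨a, b, hb, h⟩ := IsFractionRing.div_surjective (A := bddMF E) (K := FractionRing (bddMF E)) x
  exact ⟨a, b, nonZeroDivisors.ne_zero hb, h.symm⟩

/-- Ring homomorphisms on the field agree if they agree on functions. -/
theorem Fld.hom_ext {R : Type*} [Field R] {f g : Fld E →+* R}
    (h : ∀ a, f (toFld E a) = g (toFld E a)) : f = g := by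
  ext x
  obtain ⟨a, b, -, rfl⟩ := exists_eq_div E x
  rw [map_div₀, map_div₀, h, h]

/-! ## Expansion -/

theorem serB_injective :
    Function.Injective ((serAlg M).toRingHom.comp (bddMF E).subtype) := fun _ _ h =>
  Subtype.ext (serAlg_injective M h)

/-- The expansion at infinity as a complex Laurent series. -/
def toLS : Fld E →+* LaurentSeries ℂ :=
  IsFractionRing.lift (A := bddMF E) (K := FractionRing (bddMF E)) (serB_injective E)

theorem toLS_toFld (a : bddMF E) : toLS E (toFld E a) = serAlg M (a : MF M) :=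
  IsFractionRing.lift_algebraMap (A := bddMF E) (K := FractionRing (bddMF E)) (serB_injective E) a

theorem toLS_injective : Function.Injective (toLS E) := (toLS E).injective

theorem toLS_mem (x : Fld E) : toLS E x ∈ E.sFld := by
  obtain ⟨a, b, -, rfl⟩ := exists_eq_div E x
  rw [map_div₀, toLS_toFld, toLS_toFld]
  have ha := (mem_bddMF E).mp a.2 1
  have hb := (mem_bddMF E).mp b.2 1
  rw [shift_one] at ha hb
  exact div_mem ha hb

/-- The expansion at infinity in fractions of power series over the base. -/
def serF : Fld E →+* Model.SeriesField O :=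
  (RingEquiv.ofBijective E.toC.rangeRestrictField
      ⟨fun _ _ h => E.toC.injective (congrArg Subtype.val h), fun ⟨_, g, hg⟩ =>
        ⟨g, Subtype.ext hg⟩⟩).symm.toRingHom.comp
    ((toLS E).codRestrict E.toC.fieldRange fun x => toLS_mem E x)

theorem toC_serF (x : Fld E) : E.toC (serF E x) = toLS E x :=
  congrArg Subtype.val (RingEquiv.apply_symm_apply (RingEquiv.ofBijective E.toC.rangeRestrictField
      ⟨fun _ _ h => E.toC.injective (congrArg Subtype.val h), fun ⟨_, g, hg⟩ =>
        ⟨g, Subtype.ext hg⟩⟩)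
    ((toLS E).codRestrict E.toC.fieldRange (fun x => toLS_mem E x) x))

/-! ## Constants -/

/-- A constant of the base as a function. -/
def cstB : O →+* bddMF E :=
  ((algebraMap ℂ (MF M)).comp E.φ).codRestrict (bddMF E) fun a =>
    algebraMap_mem_bddMF E (E.φ_mem a)

instance instAlgebraFld : Algebra O (Fld E) := ((toFld E).comp (cstB E)).toAlgebra

theorem algebraMap_eq (a : O) : algebraMap O (Fld E) a = toFld E (cstB E a) := rfl

theorem toLS_algebraMap (a : O) : toLS E (algebraMap O (Fld E) a) = HahnSeries.C (E.φ a) := by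
  rw [algebraMap_eq, toLS_toFld]
  show serAlg M (algebraMap ℂ (MF M) (E.φ a)) = _
  rw [AlgHom.commutes, HahnSeries.algebraMap_apply']
  simp

theorem algebraMap_injective : Function.Injective (algebraMap O (Fld E)) := fun a b h => by
  have := congrArg (toLS E) h
  rw [toLS_algebraMap, toLS_algebraMap] at this
  exact E.inj (HahnSeries.C_injective this)

theorem serF_algebraMap (a : O) : serF E (algebraMap O (Fld E) a) =
    algebraMap (PowerSeries O) (Model.SeriesField O) (PowerSeries.C a) := by
  apply E.toC.injective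
  rw [toC_serF, toLS_algebraMap, E.toC_algebraMap, Emb.gO, RingHom.comp_apply, PowerSeries.map_C,
    HahnSeries.ofPowerSeries_C]

/-- A function with series over the constants as an element of the field. -/
def ofMF (φ : MF M) (h : serAlg M φ ∈ kSer E.K) : Fld E := toFld E ⟨φ, bdd_of_kSer E h⟩

/-- A constant in `K` as an element of the field. -/
def cstK : E.K →+* Fld E :=
  (toFld E).comp (((algebraMap ℂ (MF M)).comp E.K.subtype).codRestrict (bddMF E) fun c =>
    algebraMap_mem_bddMF E c.2)

theorem cstK_φ (a : O) : cstK E ⟨E.φ a, E.φ_mem a⟩ = algebraMap O (Fld E) a := rfl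

theorem exists_frac_of_mem {c : ℂ} (hc : c ∈ E.K) :
    ∃ a b : O, b ≠ 0 ∧ c = E.φ a / E.φ b := by
  obtain ⟨x, hx, y, hy, h⟩ := Subfield.mem_closure_iff.mp hc
  rw [← RingHom.coe_range, Subring.closure_eq] at hx hy
  obtain ⟨a, rfl⟩ := hx
  obtain ⟨b, rfl⟩ := hy
  rcases eq_or_ne b 0 with rfl | hb
  · exact ⟨0, 1, one_ne_zero, by rw [← h, map_zero, div_zero, zero_div]⟩
  · exact ⟨a, b, hb, h.symm⟩

/-! ## The invariant `j` -/

/-- The function `j`. -/
def jF : Fld E := toFld E ⟨jMF (Gamma M), jMF_mem E⟩

theorem toLS_jF : toLS E (jF E) = jqN M := by rw [jF, toLS_toFld, serAlg_jMF]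

theorem toLS_aeval (P : O[X]) :
    toLS E (aeval (jF E) P) = aeval (jqN M) (P.map E.φ) := by
  induction P using Polynomial.induction_on' with
  | add p q hp hq => simp only [map_add, Polynomial.map_add, hp, hq]
  | monomial n a =>
    simp [toLS_algebraMap, toLS_jF, HahnSeries.algebraMap_apply', Polynomial.map_monomial]

theorem toFld_aeval (P : O[X]) :
    toLS E (aeval (jF E) P) = serAlg M (aeval (jMF (Gamma M)) (P.map E.φ)) := by
  rw [toLS_aeval, ← aeval_algHom_apply (serAlg M), serAlg_jMF]

theorem aeval_jF_injective : Function.Injective (aeval (jF E) : O[X] → Fld E) := by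
  rw [injective_iff_map_eq_zero]
  intro P hP
  have h : serAlg M (aeval (jMF (Gamma M)) (P.map E.φ)) = 0 := by
    rw [← toFld_aeval, hP, map_zero]
  have h0 : aeval (jMF (Gamma M)) (P.map E.φ) = 0 :=
    serAlg_injective M (h.trans (map_zero _).symm)
  have h1 : P.map E.φ = 0 := eq_zero_of_eval_jFun fun τ => by
    have h2 : (modFuns (Gamma M)).val (aeval (jMF (Gamma M)) (P.map E.φ)) τ = 0 := by
      rw [h0]; rfl
    rw [← aeval_algHom_apply (modFuns (Gamma M)).val] at h2
    simpa [Polynomial.aeval_fn_apply, jMF] using h2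
  exact (Polynomial.map_eq_zero_iff E.inj).mp h1

theorem jF_ne_zero : jF E ≠ 0 := fun h => by
  have : aeval (jF E) (X : O[X]) = aeval (jF E) (0 : O[X]) := by rw [aeval_X, h, map_zero]
  exact X_ne_zero (aeval_jF_injective E this)

theorem aeval_inv_jF_injective : Function.Injective (aeval (jF E)⁻¹ : O[X] → Fld E) := by
  rw [injective_iff_map_eq_zero]
  intro P hP
  have hj := jF_ne_zero E
  have key : aeval (jF E) P.reverse = 0 := by
    letI := invertibleOfNonzero hj
    have := Polynomial.eval₂_reverse_eq_zero_iff (algebraMap O (Fld E)) (jF E)⁻¹ P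
    rw [invOf_eq_inv] at this
    rw [Polynomial.aeval_def] at hP ⊢
    letI := invertibleOfNonzero (inv_ne_zero hj)
    have h2 := (Polynomial.eval₂_reverse_eq_zero_iff (algebraMap O (Fld E)) (jF E)⁻¹ P).mpr hP
    rwa [invOf_eq_inv, inv_inv] at h2
  have := aeval_jF_injective E (key.trans (map_zero _).symm)
  simpa using this

/-! ## Translations -/

/-- Precomposition on functions. -/
def shiftB (g : SL(2, ℤ)) : bddMF E ≃+* bddMF E where
  toFun a := ⟨shift M g a.1, shift_mem_bddMF E a.2 g⟩
  invFun a := ⟨shift M g⁻¹ a.1, shift_mem_bddMF E a.2 g⁻¹⟩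
  left_inv a := Subtype.ext (by simp [shift_shift, shift_one])
  right_inv a := Subtype.ext (by simp [shift_shift, shift_one])
  map_mul' a b := Subtype.ext (map_mul (shift M g) a.1 b.1)
  map_add' a b := Subtype.ext (map_add (shift M g) a.1 b.1)

/-- Precomposition with `g` on the field. -/
def fShift (g : SL(2, ℤ)) : Fld E ≃+* Fld E :=
  IsFractionRing.ringEquivOfRingEquiv (K := Fld E) (L := Fld E) (shiftB E g)

theorem fShift_toFld (g : SL(2, ℤ)) (a : bddMF E) :
    fShift E g (toFld E a) = toFld E ⟨shift M g a.1, shift_mem_bddMF E a.2 g⟩ :=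
  IsFractionRing.ringEquivOfRingEquiv_algebraMap (shiftB E g) a

theorem fShift_fShift (g h : SL(2, ℤ)) (x : Fld E) :
    fShift E g (fShift E h x) = fShift E (h * g) x := by
  obtain ⟨a, b, -, rfl⟩ := exists_eq_div E x
  simp only [map_div₀, fShift_toFld, shift_shift]

theorem fShift_one (x : Fld E) : fShift E 1 x = x := by
  obtain ⟨a, b, -, rfl⟩ := exists_eq_div E x
  simp only [map_div₀, fShift_toFld, shift_one]

theorem fShift_congr {g h : SL(2, ℤ)} (e : red M g = red M h) (x : Fld E) :
    fShift E g x = fShift E h x := by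
  obtain ⟨a, b, -, rfl⟩ := exists_eq_div E x
  simp only [map_div₀, fShift_toFld, shift_eq_of_red_eq e]

theorem fShift_algebraMap (g : SL(2, ℤ)) (a : O) :
    fShift E g (algebraMap O (Fld E) a) = algebraMap O (Fld E) a := by
  rw [algebraMap_eq, fShift_toFld]
  exact congrArg _ (Subtype.ext ((shift M g).commutes _))

theorem fShift_cstK (g : SL(2, ℤ)) (c : E.K) : fShift E g (cstK E c) = cstK E c := by
  rw [cstK, RingHom.comp_apply, fShift_toFld]
  exact congrArg _ (Subtype.ext ((shift M g).commutes _))

theorem fShift_jF (g : SL(2, ℤ)) : fShift E g (jF E) = jF E := by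
  rw [jF, fShift_toFld]
  exact congrArg _ (Subtype.ext (shift_jMF g))

/-- Translations as a homomorphism. -/
def shiftHom : SL(2, ℤ) →* RingAut (Fld E) where
  toFun g := fShift E g⁻¹
  map_one' := RingEquiv.ext fun x => by
    show fShift E (1 : SL(2, ℤ))⁻¹ x = x
    rw [inv_one, fShift_one]
  map_mul' g h := RingEquiv.ext fun x => by
    show fShift E (g * h)⁻¹ x = fShift E g⁻¹ (fShift E h⁻¹ x)
    rw [fShift_fShift, mul_inv_rev]

theorem shiftHom_apply (g : SL(2, ℤ)) (x : Fld E) : shiftHom E g x = fShift E g⁻¹ x := rfl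

/-- The group of translations. -/
def transG : Subgroup (RingAut (Fld E)) := (shiftHom E).range

theorem mem_transG {σ : RingAut (Fld E)} : σ ∈ transG E ↔ ∃ g, ∀ x, σ x = fShift E g x := by
  constructor
  · rintro ⟨g, rfl⟩; exact ⟨g⁻¹, fun x => rfl⟩
  · rintro ⟨g, hg⟩
    exact ⟨g⁻¹, RingEquiv.ext fun x => by rw [shiftHom_apply, inv_inv, hg]⟩

instance instFiniteTransG : Finite (transG E) := by
  refine Finite.of_surjective (fun x : SL(2, ZMod M) =>
    (⟨shiftHom E (Level.lift x), ⟨_, rfl⟩⟩ : transG E)) ?_
  rintro ⟨_, g, rfl⟩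
  refine ⟨red M g, Subtype.ext (RingEquiv.ext fun x => ?_)⟩
  show fShift E (Level.lift (red M g))⁻¹ x = fShift E g⁻¹ x
  exact fShift_congr E (by rw [map_inv, map_inv, red_lift]) x

theorem transG_smul_def (σ : transG E) (x : Fld E) : σ • x = (σ : RingAut (Fld E)) x := rfl

/-- The expansion at the cusp `δ ∞`. -/
def serAt (δ : SL(2, ℤ)) : Fld E →+* Model.SeriesField O :=
  (serF E).comp (fShift E δ).toRingHom

/-! ## Invariants -/

/-- An invariant function is a polynomial in `j` over `K`. -/
theorem exists_num_den_of_invariant {x : Fld E} (h : ∀ g, fShift E g x = x) :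
    ∃ P Q : O[X], aeval (jF E) Q ≠ 0 ∧ x * aeval (jF E) Q = aeval (jF E) P := by
  classical
  obtain ⟨a, b, hb, rfl⟩ := exists_eq_div E x
  haveI : Fintype SL(2, ZMod M) := Fintype.ofFinite _
  let N : bddMF E := ∏ y : SL(2, ZMod M), shiftB E (Level.lift y) b
  let c : bddMF E := ∏ y ∈ (Finset.univ : Finset SL(2, ZMod M)).erase 1, shiftB E (Level.lift y) b
  have hbc : b * c = N := by
    show b * c = ∏ y : SL(2, ZMod M), shiftB E (Level.lift y) b
    rw [← Finset.mul_prod_erase Finset.univ _ (Finset.mem_univ (1 : SL(2, ZMod M)))]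
    congr 1
    refine Subtype.ext ?_
    show (b : MF M) = shift M (Level.lift (1 : SL(2, ZMod M))) b
    rw [shift_eq_of_red_eq (g := Level.lift (1 : SL(2, ZMod M))) (h := 1)
      (by rw [red_lift, map_one]), shift_one]
  have hinvN : ∀ g, shift M g (N : MF M) = N := fun g => by
    have e : ∀ y, shift M g ((shiftB E (Level.lift y) b : bddMF E) : MF M) =
        ((shiftB E (Level.lift (y * red M g)) b : bddMF E) : MF M) := fun y => by
      show shift M g (shift M (Level.lift y) (b : MF M)) = shift M (Level.lift (y * red M g)) b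
      rw [shift_shift]
      exact shift_eq_of_red_eq (by rw [map_mul, red_lift, red_lift]) _
    simp only [N, SubmonoidClass.coe_finsetProd, map_prod, e]
    exact Fintype.prod_equiv (Equiv.mulRight (red M g)) _ _ fun y => rfl
  have hN0 : N ≠ 0 := by
    refine Finset.prod_ne_zero_iff.mpr fun y _ h0 => hb ((shiftB E (Level.lift y)).injective ?_)
    rw [h0, map_zero]
  have hxN : toFld E a / toFld E b * toFld E N = toFld E (a * c) := by
    rw [← hbc, map_mul, map_mul, ← mul_assoc, div_mul_cancel₀]
    exact (map_ne_zero_iff _ (toFld_injective E)).mpr hb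
  have hinvA : ∀ g, shift M g ((a * c : bddMF E) : MF M) = (a * c : bddMF E) := fun g => by
    have h1 : fShift E g (toFld E (a * c)) = toFld E (a * c) := by
      rw [← hxN, map_mul, h, fShift_toFld]
      congr 2
      exact Subtype.ext (hinvN g)
    rw [fShift_toFld] at h1
    exact congrArg Subtype.val (toFld_injective E h1)
  obtain ⟨P₀, hP₀⟩ := exists_eval_of_invariant E (a * c : bddMF E).2 hinvA
  obtain ⟨Q₀, hQ₀⟩ := exists_eval_of_invariant E N.2 hinvN
  -- clear denominators in the coefficients
  have hden : ∀ R : Polynomial E.K, ∃ (d : O) (R' : O[X]), d ≠ 0 ∧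
      R'.map E.φ = Polynomial.C (E.φ d) * R.map E.K.subtype := fun R => by
    induction R using Polynomial.induction_on' with
    | add p q hp hq =>
      obtain ⟨d, p', hd, hp'⟩ := hp
      obtain ⟨d', q', hd', hq'⟩ := hq
      refine ⟨d * d', Polynomial.C d' * p' + Polynomial.C d * q', mul_ne_zero hd hd', ?_⟩
      simp only [Polynomial.map_add, Polynomial.map_mul, Polynomial.map_C, hp', hq', map_mul]
      ring
    | monomial n k =>
      obtain ⟨u, v, hv, hk⟩ := exists_frac_of_mem E k.2
      refine ⟨v, monomial n u, hv, ?_⟩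
      rw [Polynomial.map_monomial, Polynomial.map_monomial, C_mul_monomial]
      congr 1
      show E.φ u = E.φ v * (k : ℂ)
      rw [hk, mul_div_cancel₀ _ ((map_ne_zero_iff _ E.inj).mpr hv)]
  obtain ⟨dP, P, hdP, hP⟩ := hden P₀
  obtain ⟨dQ, Q, hdQ, hQ⟩ := hden Q₀
  have eP : aeval (jF E) P = algebraMap O (Fld E) dP * toFld E (a * c) := toLS_injective E (by
    rw [map_mul, toLS_algebraMap, toLS_toFld, toFld_aeval, hP, map_mul, map_mul, ← hP₀, aeval_C,
      AlgHom.commutes, HahnSeries.algebraMap_apply']
    simp)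
  have eQ : aeval (jF E) Q = algebraMap O (Fld E) dQ * toFld E N := toLS_injective E (by
    rw [map_mul, toLS_algebraMap, toLS_toFld, toFld_aeval, hQ, map_mul, map_mul, ← hQ₀, aeval_C,
      AlgHom.commutes, HahnSeries.algebraMap_apply']
    simp)
  have h0 : ∀ d : O, d ≠ 0 → algebraMap O (Fld E) d ≠ 0 := fun d hd =>
    (map_ne_zero_iff _ (algebraMap_injective E)).mpr hd
  refine ⟨Polynomial.C dQ * P, Polynomial.C dP * Q, ?_, ?_⟩
  · rw [map_mul, aeval_C, eQ]
    exact mul_ne_zero (h0 _ hdP)
      (mul_ne_zero (h0 _ hdQ) ((map_ne_zero_iff _ (toFld_injective E)).mpr hN0))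
  · rw [map_mul, map_mul, aeval_C, aeval_C, eP, eQ]
    linear_combination (algebraMap O (Fld E) dP * algebraMap O (Fld E) dQ) * hxN

theorem fixedRational_jF : Model.FixedRational O (transG E) (jF E) := fun _ hx =>
  exists_num_den_of_invariant E fun g =>
    hx ⟨shiftHom E g⁻¹, ⟨_, rfl⟩⟩ |> fun h => by
      rwa [transG_smul_def, shiftHom_apply, inv_inv] at h

theorem fixedRational_inv_jF : Model.FixedRational O (transG E) (jF E)⁻¹ := by
  intro x hx
  obtain ⟨P, Q, hQ, he⟩ := fixedRational_jF E x hx
  -- `j ^ D P(1/j)` is a polynomial in `j`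
  have hj := jF_ne_zero E
  have key : ∀ (R : O[X]) (D : ℕ), R.natDegree ≤ D →
      aeval (jF E)⁻¹ (R.reflect D) = (jF E)⁻¹ ^ D * aeval (jF E) R := fun R D hD => by
    letI := invertibleOfNonzero hj
    have := Polynomial.eval₂_reflect_mul_pow (algebraMap O (Fld E)) (jF E) D R hD
    rw [invOf_eq_inv] at this
    rw [Polynomial.aeval_def, Polynomial.aeval_def, ← this, inv_pow, mul_comm _ (jF E ^ D),
      ← mul_assoc, inv_mul_cancel₀ (pow_ne_zero _ hj), one_mul]
  set D := max P.natDegree Q.natDegree
  refine ⟨P.reflect D, Q.reflect D, ?_, ?_⟩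
  · rw [key Q D (le_max_right _ _)]
    exact mul_ne_zero (pow_ne_zero _ (inv_ne_zero hj)) hQ
  · rw [key Q D (le_max_right _ _), key P D (le_max_left _ _), ← he]
    ring

instance instCharZeroFld : CharZero (Fld E) :=
  charZero_of_injective_ringHom (f := (cstK E)) (cstK E).injective

end Fermat.Agent.ModField
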