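/-
Semilinear automorphisms of the level field: conjugation by automorphisms of `ℂ` stabilising
the constants.
-/
import Fermat.Agent.Models.Field.Fld

set_option autoImplicit false

noncomputable section

namespace Fermat.Agent.ModField

open UpperHalfPlane CongruenceSubgroup
open Fermat.Agent.GalRep
open Fermat.Agent.GalRep.Level
open scoped MatrixGroups

variable {M : ℕ} [NeZero M]

/-! ## More on conjugate functions -/

theorem ConjF.one (σ : ℂ ≃+* ℂ) : ConjF σ (1 : MF M) 1 := fun g g' _ => by simp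

theorem ConjF.symm' {σ : ℂ ≃+* ℂ} {φ φ' : MF M} (h : ConjF σ φ φ') : ConjF σ.symm φ' φ := by
  intro g g' hg
  have hg' : ConjEq M (cycC M σ) g' g := by
    have h1 := hg.symm
    rwa [show (σ.symm : ℂ ≃+* ℂ) = σ⁻¹ from rfl, map_inv, inv_inv] at h1
  rw [h g' g hg']
  ext m
  simp [lmap_coeff]

theorem ConjF.trans' {σ τ : ℂ ≃+* ℂ} {φ φ' φ'' : MF M} (h : ConjF τ φ φ') (h' : ConjF σ φ' φ'') :
    ConjF (σ * τ) φ φ'' := by
  intro g g' hg
  obtain ⟨g₁, h₁⟩ := exists_conjEq (cycC M τ) g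
  have h₂ : ConjEq M (cycC M σ) g₁ g' := by
    have h3 := h₁.symm.trans hg
    rwa [map_mul, mul_assoc, mul_inv_cancel, mul_one] at h3
  rw [h' g₁ g' h₂, h g g₁ h₁]
  ext m
  simp [lmap_coeff]

theorem ConjF.shift' {σ : ℂ ≃+* ℂ} {φ φ' : MF M} (h : ConjF σ φ φ') {g g' : SL(2, ℤ)}
    (hg : ConjEq M (cycC M σ) g g') : ConjF σ (shift M g φ) (shift M g' φ') := fun k k' hk => by
  rw [shift_shift, shift_shift]
  exact h _ _ (hg.mul hk)

theorem ConjF.jMF (σ : ℂ ≃+* ℂ) : ConjF σ (jMF (Gamma M)) (jMF (Gamma M)) := fun g g' _ => by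
  rw [shift_jMF, shift_jMF, serAlg_jMF, lmap_jqN]

/-- The conjugate function. -/
def conjM (σ : ℂ ≃+* ℂ) (φ : MF M) : MF M := (exists_conjF σ φ).choose

theorem conjM_spec (σ : ℂ ≃+* ℂ) (φ : MF M) : ConjF σ φ (conjM σ φ) :=
  (exists_conjF σ φ).choose_spec

theorem conjM_eq {σ : ℂ ≃+* ℂ} {φ φ' : MF M} (h : ConjF σ φ φ') : conjM σ φ = φ' :=
  (conjM_spec σ φ).unique h

/-! ## On the field -/

variable {O : Type} [CommRing O] [IsDomain O] (E : Emb O M)

/-- Automorphisms of `ℂ` stabilising the constants. -/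
def stabK : Subgroup (ℂ ≃+* ℂ) where
  carrier := {σ | ∀ c, σ c ∈ E.K ↔ c ∈ E.K}
  one_mem' := fun c => Iff.rfl
  mul_mem' := fun {σ τ} hσ hτ c => (hσ (τ c)).trans (hτ c)
  inv_mem' := fun {σ} hσ c => by
    have := hσ (σ.symm c)
    rw [RingEquiv.apply_symm_apply] at this
    exact this.symm

theorem mem_stabK {σ : ℂ ≃+* ℂ} : σ ∈ stabK E ↔ ∀ c, σ c ∈ E.K ↔ c ∈ E.K := Iff.rfl

/-- Conjugation on functions over the base. -/
def conjB (σ : stabK E) : bddMF E ≃+* bddMF E where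
  toFun a := ⟨conjM σ.1 a.1, bdd_of_conjF E (fun c hc => (σ.2 c).mpr hc) a.2 (conjM_spec _ _)⟩
  invFun a := ⟨conjM σ.1.symm a.1,
    bdd_of_conjF E (fun c hc => (((σ⁻¹ : stabK E)).2 c).mpr hc) a.2 (conjM_spec _ _)⟩
  left_inv a := Subtype.ext (conjM_eq (ConjF.symm' (conjM_spec _ _)))
  right_inv a := Subtype.ext (conjM_eq (by
    have := ConjF.symm' (conjM_spec (σ.1.symm) a.1)
    rwa [RingEquiv.symm_symm] at this))
  map_mul' a b := Subtype.ext (conjM_eq ((conjM_spec _ _).mul (conjM_spec _ _)))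
  map_add' a b := Subtype.ext (conjM_eq ((conjM_spec _ _).add (conjM_spec _ _)))

/-- Conjugation on the field. -/
def fConj (σ : stabK E) : Fld E ≃+* Fld E :=
  IsFractionRing.ringEquivOfRingEquiv (K := Fld E) (L := Fld E) (conjB E σ)

theorem fConj_toFld (σ : stabK E) (a : bddMF E) :
    fConj E σ (toFld E a) = toFld E (conjB E σ a) :=
  IsFractionRing.ringEquivOfRingEquiv_algebraMap (conjB E σ) a

theorem fConj_fConj (σ τ : stabK E) (x : Fld E) :
    fConj E σ (fConj E τ x) = fConj E (σ * τ) x := by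
  obtain ⟨a, b, -, rfl⟩ := exists_eq_div E x
  have h : ∀ a, conjB E σ (conjB E τ a) = conjB E (σ * τ) a := fun a =>
    Subtype.ext (conjM_eq (ConjF.trans' (conjM_spec _ _) (conjM_spec _ _))).symm
  simp only [map_div₀, fConj_toFld, h]

theorem fConj_one (x : Fld E) : fConj E 1 x = x := by
  have h := fConj_fConj E 1 1 x
  rw [mul_one] at h
  exact (fConj E 1).injective h

theorem fConj_jF (σ : stabK E) : fConj E σ (jF E) = jF E := by
  rw [jF, fConj_toFld]
  exact congrArg _ (Subtype.ext (conjM_eq (ConjF.jMF _)))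

theorem fConj_cstK (σ : stabK E) (c : E.K) :
    fConj E σ (cstK E c) = cstK E ⟨σ.1 c, (σ.2 c).mpr c.2⟩ := by
  rw [cstK, RingHom.comp_apply, fConj_toFld]
  exact congrArg _ (Subtype.ext (conjM_eq (ConjF.algebraMap _)))

theorem fConj_fShift (σ : stabK E) {g g' : SL(2, ℤ)} (hg : ConjEq M (cycC M σ.1) g g') (x : Fld E) :
    fConj E σ (fShift E g x) = fShift E g' (fConj E σ x) := by
  obtain ⟨a, b, -, rfl⟩ := exists_eq_div E x
  have h : ∀ a, conjB E σ ⟨shift M g a.1, shift_mem_bddMF E a.2 g⟩ =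
      ⟨shift M g' (conjB E σ a).1, shift_mem_bddMF E (conjB E σ a).2 g'⟩ := fun a =>
    Subtype.ext (conjM_eq (ConjF.shift' (conjM_spec _ _) hg))
  simp only [map_div₀, fShift_toFld, fConj_toFld, h]

theorem toLS_fConj (σ : stabK E) (x : Fld E) :
    toLS E (fConj E σ x) = lmap σ.1.toRingHom (toLS E x) := by
  obtain ⟨a, b, -, rfl⟩ := exists_eq_div E x
  have h : ∀ a : bddMF E, toLS E (fConj E σ (toFld E a)) = lmap σ.1.toRingHom (toLS E (toFld E a)) :=
    fun a => by
    have h1 := conjM_spec σ.1 a.1 1 1 (ConjEq.one_one _)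
    rw [shift_one, shift_one] at h1
    rw [fConj_toFld, toLS_toFld, toLS_toFld]
    exact h1
  simp only [map_div₀, h]

/-- Conjugation as a homomorphism. -/
def conjHom : stabK E →* RingAut (Fld E) where
  toFun := fConj E
  map_one' := RingEquiv.ext (fConj_one E)
  map_mul' σ τ := RingEquiv.ext fun x => (fConj_fConj E σ τ x).symm

end Fermat.Agent.ModField
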