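/-
Charts of a field with a finite group of automorphisms: invariants, transitivity, finiteness,
residues, localisation.
-/
import Fermat.Agent.GalRep.Model.SheetsMk
import Mathlib.RingTheory.Invariant.Basic

set_option autoImplicit false
set_option linter.style.haveILetI false

noncomputable section

namespace Fermat.Agent.ModField

open Polynomial IsLocalRing
open Fermat.Agent.GalRep.Model (chartRing mem_chartRing_iff self_mem_chartRing polyVal coe_polyVal
  FixedRational fg_chartRing isIntegral_adjoin_iff)

variable {O F : Type} [CommRing O] [IsDomain O] [IsDiscreteValuationRing O] [Field F] [Algebra O F]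

/-- The structure map of a chart. -/
def polyHom (w : F) : O[X] →+* chartRing O w :=
  (aeval (⟨w, self_mem_chartRing w⟩ : chartRing O w)).toRingHom

theorem coe_polyHom (w : F) (P : O[X]) : ((polyHom w P : chartRing O w) : F) = aeval w P :=
  coe_polyVal w P

theorem polyHom_C (w : F) (a : O) : polyHom w (C a) = algebraMap O (chartRing O w) a := by
  simp [polyHom]

theorem polyHom_isIntegral (w : F) : (polyHom (O := O) w).IsIntegral := by
  intro x
  obtain ⟨P, hP, hPx⟩ := (isIntegral_adjoin_iff w (x : F)).mp (mem_chartRing_iff.mp x.2)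
  refine ⟨P, hP, Subtype.val_injective ?_⟩
  have := Polynomial.hom_eval₂ P (polyHom w) (chartRing O w).val.toRingHom x
  have e : (chartRing O w).val.toRingHom.comp (polyHom w) = (aeval w).toRingHom := by
    refine Polynomial.ringHom_ext (fun a => ?_) ?_ <;> simp [polyHom] <;> rfl
  rw [e] at this
  exact this.trans hPx

/-- Charts are integrally closed in the field. -/
theorem chartRing_closed (w : F) {x : F} (hx : IsIntegral (chartRing O w) x) : x ∈ chartRing O w := by
  rw [mem_chartRing_iff]
  have hx' : IsIntegral (integralClosure (Algebra.adjoin O ({w} : Set F)) F) x := hx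
  exact isIntegral_trans x hx'

section Group

variable {G : Type} [Group G] [MulSemiringAction G F] [SMulCommClass G O F] {w : F}

theorem smul_algebraMap' (g : G) (a : O) : g • algebraMap O F a = algebraMap O F a := by
  rw [Algebra.algebraMap_eq_smul_one, smul_comm, smul_one]

theorem smul_aeval (hw : ∀ g : G, g • w = w) (g : G) (P : O[X]) : g • aeval w P = aeval w P := by
  induction P using Polynomial.induction_on' with
  | add p q hp hq => rw [map_add, smul_add, hp, hq]
  | monomial n a => rw [aeval_monomial, smul_mul', smul_pow', hw, smul_algebraMap']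

theorem smul_mem_chart (hw : ∀ g : G, g • w = w) (g : G) {x : F} (hx : x ∈ chartRing O w) :
    g • x ∈ chartRing O w := by
  rw [mem_chartRing_iff, isIntegral_adjoin_iff] at *
  obtain ⟨P, hP, hPx⟩ := hx
  refine ⟨P, hP, ?_⟩
  have h := congrArg (fun y => g • y) hPx
  simp only [smul_zero] at h
  rw [Polynomial.eval₂_eq_sum_range] at h ⊢
  rw [← h, Finset.smul_sum]
  refine Finset.sum_congr rfl fun i _ => ?_
  rw [smul_mul', smul_pow']
  congr 1
  exact (smul_aeval hw g _).symm

/-- The action on a chart. -/
@[reducible] def chartAction (hw : ∀ g : G, g • w = w) : MulSemiringAction G (chartRing O w) where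
  smul g x := ⟨g • (x : F), smul_mem_chart hw g x.2⟩
  one_smul x := Subtype.ext (one_smul G (x : F))
  mul_smul g h x := Subtype.ext (mul_smul g h (x : F))
  smul_zero g := Subtype.ext (smul_zero g)
  smul_add g x y := Subtype.ext (smul_add g (x : F) (y : F))
  smul_one g := Subtype.ext (smul_one g)
  smul_mul g x y := Subtype.ext (smul_mul' g (x : F) (y : F))

/-- An invariant element of a chart is a polynomial in the coordinate. -/
theorem exists_eq_aeval_of_invariant (htr : Function.Injective (aeval (R := O) w))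
    (hfix : FixedRational O G w) {x : F} (hx : x ∈ chartRing O w) (hinv : ∀ g : G, g • x = x) :
    ∃ P : O[X], x = aeval w P := by
  letI : Algebra O[X] F := (aeval w).toRingHom.toAlgebra
  let ι : FractionRing O[X] →+* F :=
    IsFractionRing.lift (g := (aeval (R := O) w).toRingHom) htr
  letI : Algebra (FractionRing O[X]) F := ι.toAlgebra
  haveI : IsScalarTower O[X] (FractionRing O[X]) F := IsScalarTower.of_algebraMap_eq fun P =>
    (IsFractionRing.lift_algebraMap (g := (aeval (R := O) w).toRingHom) htr P).symm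
  obtain ⟨P, Q, hQ, hPQ⟩ := hfix x hinv
  set z : FractionRing O[X] :=
    algebraMap O[X] (FractionRing O[X]) P / algebraMap O[X] (FractionRing O[X]) Q with hz
  have hxz : x = algebraMap (FractionRing O[X]) F z := by
    rw [hz, map_div₀, ← IsScalarTower.algebraMap_apply, ← IsScalarTower.algebraMap_apply,
      eq_div_iff (by exact hQ)]
    exact hPQ
  have hint : IsIntegral O[X] z := by
    refine (isIntegral_algHom_iff (IsScalarTower.toAlgHom O[X] (FractionRing O[X]) F)
      (algebraMap (FractionRing O[X]) F).injective).mp ?_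
    show IsIntegral O[X] (algebraMap (FractionRing O[X]) F z)
    rw [← hxz]
    obtain ⟨R, hR, hRx⟩ := (isIntegral_adjoin_iff w x).mp (mem_chartRing_iff.mp hx)
    exact ⟨R, hR, hRx⟩
  obtain ⟨R, hR⟩ := IsIntegrallyClosed.isIntegral_iff.mp hint
  refine ⟨R, ?_⟩
  rw [hxz, ← hR, ← IsScalarTower.algebraMap_apply]
  rfl

variable [Finite G]

/-- Primes of a chart with the same trace on `O[w]` are conjugate. -/
theorem exists_smul_prime (hw : ∀ g : G, g • w = w) (htr : Function.Injective (aeval (R := O) w))
    (hfix : FixedRational O G w) (P Q : Ideal (chartRing O w)) [P.IsPrime] [Q.IsPrime]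
    (h : P.comap (polyHom w) = Q.comap (polyHom w)) :
    ∃ g : G, ∀ x : chartRing O w,
      x ∈ Q ↔ (⟨g • (x : F), smul_mem_chart hw g x.2⟩ : chartRing O w) ∈ P := by
  letI : Algebra O[X] (chartRing O w) := (polyHom w).toAlgebra
  letI := chartAction (O := O) hw
  haveI : SMulCommClass G O[X] (chartRing O w) := ⟨fun g R x => by
    rw [Algebra.smul_def, Algebra.smul_def, smul_mul']
    congr 1
    refine Subtype.ext ?_
    show g • ((polyHom w R : chartRing O w) : F) = (polyHom w R : chartRing O w)
    rw [coe_polyHom, smul_aeval hw]⟩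
  haveI : Algebra.IsInvariant O[X] (chartRing O w) G := ⟨fun b hb => by
    obtain ⟨R, hR⟩ := exists_eq_aeval_of_invariant htr hfix b.2 fun g =>
      congrArg Subtype.val (hb g)
    exact ⟨R, Subtype.ext ((coe_polyHom w R).trans hR.symm)⟩⟩
  obtain ⟨g, hg⟩ := Algebra.IsInvariant.exists_smul_of_under_eq O[X] (chartRing O w) G P Q h
  refine ⟨g⁻¹, fun x => ?_⟩
  rw [hg, Ideal.mem_pointwise_smul_iff_inv_smul_mem]
  rfl

/-- Charts are Noetherian. -/
theorem isNoetherianRing_chartRing [FaithfulSMul G F] [CharZero F]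
    (htr : Function.Injective (aeval (R := O) w)) (hfix : FixedRational O G w) :
    IsNoetherianRing (chartRing O w) := by
  classical
  obtain ⟨m, h, hh⟩ := fg_chartRing w htr hfix
  letI : Algebra O[X] (chartRing O w) := (polyHom w).toAlgebra
  haveI : Module.Finite O[X] (chartRing O w) := by
    refine ⟨⟨Finset.univ.image h, ?_⟩⟩
    rw [eq_top_iff]
    rintro f -
    obtain ⟨Q, rfl⟩ := hh f
    refine Submodule.sum_mem _ fun i _ => ?_
    rw [show polyVal w (Q i) * h i = Q i • h i from (Algebra.smul_def _ _).symm]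
    exact Submodule.smul_mem _ _ (Submodule.subset_span (Finset.mem_image_of_mem _ (Finset.mem_univ i)))
  exact IsNoetherianRing.of_finite O[X] (chartRing O w)

end Group

/-! ## Primes above the uniformiser -/

theorem isMaximal_of_C_lt {π : O} (hπ : Irreducible π) {Q : Ideal O[X]} [Q.IsPrime]
    (hlt : Ideal.span {C π} < Q) : Q.IsMaximal := by
  have hm := hπ.maximalIdeal_eq
  let f : O[X] →+* (ResidueField O)[X] := mapRingHom (residue O)
  have hf : Function.Surjective f := Polynomial.map_surjective _ residue_surjective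
  have hker : RingHom.ker f = Ideal.span {C π} := by
    rw [Polynomial.ker_mapRingHom, IsLocalRing.ker_residue, hm, Ideal.map_span, Set.image_singleton]
  have hle : RingHom.ker f ≤ Q := hker.le.trans hlt.le
  haveI hp : (Q.map f).IsPrime := Ideal.map_isPrime_of_surjective hf hle
  have hne : Q.map f ≠ ⊥ := by
    rw [Ne, Ideal.map_eq_bot_iff_le_ker, hker]
    exact not_le_of_gt hlt
  haveI := hp.isMaximal hne
  have hQ : Q = (Q.map f).comap f := by
    rw [Ideal.comap_map_of_surjective f hf, ← RingHom.ker_eq_comap_bot, sup_eq_left.mpr hle]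
  rw [hQ]
  exact Ideal.comap_isMaximal_of_surjective f hf

/-- A prime strictly above a prime whose trace is `(π)` is maximal. -/
theorem isMaximal_above {π : O} (hπ : Irreducible π) (w : F) (P m : Ideal (chartRing O w))
    [P.IsPrime] [m.IsPrime] (hP : P.comap (polyHom w) = Ideal.span {C π}) (hPm : P ≤ m)
    {b : chartRing O w} (hb : b ∈ m) (hbP : b ∉ P) : m.IsMaximal := by
  letI : Algebra O[X] (chartRing O w) := (polyHom w).toAlgebra
  haveI : Algebra.IsIntegral O[X] (chartRing O w) := ⟨polyHom_isIntegral w⟩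
  have hlt : P.comap (polyHom w) < m.comap (polyHom w) :=
    Ideal.comap_lt_comap_of_integral_mem_sdiff hPm ⟨hb, hbP⟩ (Algebra.IsIntegral.isIntegral b)
  rw [hP] at hlt
  haveI : (m.comap (polyHom w)).IsPrime := Ideal.IsPrime.comap _
  exact Ideal.isMaximal_of_isIntegral_of_isMaximal_comap m (isMaximal_of_C_lt hπ hlt)

/-- Maximal ideals over the uniformiser have the residue field of the base. -/
theorem residue_chartRing {π : O} (hπ : Irreducible π) [IsAlgClosed (ResidueField O)] (w : F)
    (m : Ideal (chartRing O w)) [m.IsMaximal] (hπm : algebraMap O (chartRing O w) π ∈ m)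
    (b : chartRing O w) : ∃ c : O, b - algebraMap O (chartRing O w) c ∈ m := by
  classical
  have hm := hπ.maximalIdeal_eq
  letI : Field (chartRing O w ⧸ m) := Ideal.Quotient.field m
  let ψ : O →+* chartRing O w ⧸ m := (Ideal.Quotient.mk m).comp (algebraMap O (chartRing O w))
  let ψk : ResidueField O →+* chartRing O w ⧸ m := Ideal.Quotient.lift _ ψ fun a ha => by
    rw [hm, Ideal.mem_span_singleton] at ha
    obtain ⟨r, rfl⟩ := ha
    show Ideal.Quotient.mk m (algebraMap O (chartRing O w) (π * r)) = 0
    rw [Ideal.Quotient.eq_zero_iff_mem, map_mul]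
    exact Ideal.mul_mem_right _ _ hπm
  have hψ : ∀ a, ψk (residue O a) = ψ a := fun a => rfl
  -- the value of the coordinate
  have key : ∀ (z : chartRing O w ⧸ m) (R : (ResidueField O)[X]), R.Monic → R.eval₂ ψk z = 0 →
      ∃ c : O, z = ψ c := fun z R hR hz => by
    have hs := (IsAlgClosed.splits R).eq_prod_roots_of_monic hR
    rw [hs, Polynomial.eval₂_multiset_prod, Multiset.prod_eq_zero_iff, Multiset.mem_map] at hz
    obtain ⟨y, hy, hy0⟩ := hz
    rw [Multiset.mem_map] at hy
    obtain ⟨r, -, rfl⟩ := hy
    rw [Polynomial.eval₂_sub, Polynomial.eval₂_X, Polynomial.eval₂_C, sub_eq_zero] at hy0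
    obtain ⟨c, rfl⟩ := residue_surjective r
    exact ⟨c, hy0⟩
  obtain ⟨Rw, hRw, hRw0⟩ : ∃ R : (ResidueField O)[X], R ≠ 0 ∧
      R.eval₂ ψk (Ideal.Quotient.mk m (polyHom w X)) = 0 := by
    by_contra hall
    push Not at hall
    -- otherwise the residue field contains a polynomial ring over which it is integral
    have hinj : Function.Injective (Polynomial.eval₂RingHom ψk (Ideal.Quotient.mk m (polyHom w X))) := by
      rw [injective_iff_map_eq_zero]
      intro R hR
      by_contra h0
      exact hall R h0 hR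
    have hint : (Polynomial.eval₂RingHom ψk (Ideal.Quotient.mk m (polyHom w X))).IsIntegral := by
      intro z
      obtain ⟨y, rfl⟩ := Ideal.Quotient.mk_surjective z
      obtain ⟨P, hP, hPy⟩ := polyHom_isIntegral w y
      refine ⟨P.map (mapRingHom (residue O)), hP.map _, ?_⟩
      have e : (Polynomial.eval₂RingHom ψk (Ideal.Quotient.mk m (polyHom w X))).comp
          (mapRingHom (residue O)) = (Ideal.Quotient.mk m).comp (polyHom w) := by
        ext a
        · simp [hψ, ψ, polyHom]
        · simp
      rw [Polynomial.eval₂_map, e, ← Polynomial.hom_eval₂, hPy, map_zero]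
    letI := (Polynomial.eval₂RingHom ψk (Ideal.Quotient.mk m (polyHom w X))).toAlgebra
    haveI : Algebra.IsIntegral (ResidueField O)[X] (chartRing O w ⧸ m) := ⟨hint⟩
    exact Polynomial.not_isField (ResidueField O)
      ((Algebra.IsIntegral.isField_iff_isField hinj).mpr (Field.toIsField _))
  obtain ⟨c, hc⟩ := key _ (Rw * C (Rw.leadingCoeff⁻¹)) (monic_mul_leadingCoeff_inv hRw) (by
    rw [Polynomial.eval₂_mul, hRw0, zero_mul])
  obtain ⟨P, hP, hPb⟩ := polyHom_isIntegral w b
  obtain ⟨d, hd⟩ := key (Ideal.Quotient.mk m b) ((P.map (evalRingHom c)).map (residue O))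
      ((hP.map _).map _) (by
    rw [Polynomial.eval₂_map, Polynomial.eval₂_map]
    have e : (ψk.comp (residue O)).comp (evalRingHom c) =
        (Ideal.Quotient.mk m).comp (polyHom w) := by
      ext a
      · simp [hψ, ψ, polyHom]
      · simp [hψ, ← hc]
    rw [e, ← Polynomial.hom_eval₂, hPb, map_zero])
  exact ⟨d, Ideal.Quotient.eq.mp hd⟩

/-! ## The overlap -/

/-- Integral closure of `O[w, w⁻¹]`. -/
def overlapRing (O : Type) [CommRing O] {F : Type} [Field F] [Algebra O F] (w : F) :
    Subalgebra O F :=
  (integralClosure (Algebra.adjoin O ({w, w⁻¹} : Set F)) F).restrictScalars O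

theorem chartRing_le_overlap (w : F) : chartRing O w ≤ overlapRing O w := by
  intro x hx
  rw [mem_chartRing_iff, isIntegral_adjoin_iff] at hx
  obtain ⟨P, hP, hPx⟩ := hx
  let φ : O[X] →+* Algebra.adjoin O ({w, w⁻¹} : Set F) :=
    (aeval (⟨w, Algebra.subset_adjoin (Or.inl rfl)⟩ : Algebra.adjoin O ({w, w⁻¹} : Set F))).toRingHom
  refine ⟨P.map φ, hP.map φ, ?_⟩
  rw [Polynomial.eval₂_map]
  have e : (algebraMap (Algebra.adjoin O ({w, w⁻¹} : Set F)) F).comp φ = (aeval w).toRingHom := by
    refine Polynomial.ringHom_ext (fun a => ?_) ?_ <;> simp [φ] <;> rfl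
  rw [e]; exact hPx

theorem overlapRing_inv (w : F) : overlapRing O w⁻¹ = overlapRing O w := by
  have key : ∀ S T : Set F, S = T → (integralClosure (Algebra.adjoin O S) F).restrictScalars O =
      (integralClosure (Algebra.adjoin O T) F).restrictScalars O := by
    rintro S T rfl; rfl
  exact key _ _ (by rw [inv_inv, Set.pair_comm])

theorem overlapRing_closed (w : F) {x : F} (hx : IsIntegral (overlapRing O w) x) :
    x ∈ overlapRing O w := by
  have hx' : IsIntegral (integralClosure (Algebra.adjoin O ({w, w⁻¹} : Set F)) F) x := hx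
  exact isIntegral_trans x hx'

theorem overlap_loc (w : F) (hw : w ≠ 0) {x : F} (hx : x ∈ overlapRing O w) :
    ∃ N : ℕ, w ^ N * x ∈ chartRing O w := by
  classical
  obtain ⟨P, hP, hPx⟩ := hx
  set A : Subalgebra O F := Algebra.adjoin O ({w} : Set F)
  have hwA : w ∈ A := Algebra.self_mem_adjoin_singleton O w
  have hmono : ∀ {c : F} {N N' : ℕ}, N ≤ N' → w ^ N * c ∈ A → w ^ N' * c ∈ A := by
    intro c N N' h hc
    obtain ⟨d, rfl⟩ := Nat.exists_eq_add_of_le h
    rw [pow_add, mul_comm (w ^ N), mul_assoc]
    exact mul_mem (pow_mem hwA _) hc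
  have hden : ∀ c ∈ Algebra.adjoin O ({w, w⁻¹} : Set F), ∃ N : ℕ, w ^ N * c ∈ A := by
    intro c hc
    induction hc using Algebra.adjoin_induction with
    | mem y hy =>
      rcases hy with rfl | rfl
      · exact ⟨0, by rwa [pow_zero, one_mul]⟩
      · exact ⟨1, by rw [pow_one, mul_inv_cancel₀ hw]; exact one_mem A⟩
    | algebraMap r => exact ⟨0, by rw [pow_zero, one_mul]; exact A.algebraMap_mem r⟩
    | add y z _ _ hy hz =>
      obtain ⟨N, hN⟩ := hy
      obtain ⟨N', hN'⟩ := hz
      exact ⟨max N N', by
        rw [mul_add]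
        exact add_mem (hmono (le_max_left _ _) hN) (hmono (le_max_right _ _) hN')⟩
    | mul y z _ _ hy hz =>
      obtain ⟨N, hN⟩ := hy
      obtain ⟨N', hN'⟩ := hz
      exact ⟨N + N', by rw [pow_add, mul_mul_mul_comm]; exact mul_mem hN hN'⟩
  choose N hN using fun i => hden ((P.coeff i : Algebra.adjoin O ({w, w⁻¹} : Set F)) : F)
    (P.coeff i).2
  set K := (Finset.range (P.natDegree + 1)).sup N
  refine ⟨K, mem_chartRing_iff.mpr ?_⟩
  let p : F[X] := P.map (algebraMap (Algebra.adjoin O ({w, w⁻¹} : Set F)) F)
  have hp : p.Monic := hP.map _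
  have hdeg : p.natDegree = P.natDegree := hP.natDegree_map _
  have hroot : (p.scaleRoots (w ^ K)).eval (w ^ K * x) = 0 := by
    refine Polynomial.scaleRoots_eval₂_eq_zero (RingHom.id F) ?_
    rwa [Polynomial.eval₂_id, Polynomial.eval_map]
  have hcoef : ∀ i, (p.scaleRoots (w ^ K)).coeff i ∈ A.toSubring := fun i => by
    rw [Polynomial.coeff_scaleRoots]
    rcases lt_trichotomy i p.natDegree with hi | hi | hi
    · obtain ⟨d, hd⟩ : ∃ d, p.natDegree - i = d + 1 := ⟨_, (Nat.sub_add_cancel (by omega)).symm⟩
      rw [hd, mul_comm, pow_succ, mul_assoc, Polynomial.coeff_map]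
      refine mul_mem (pow_mem (pow_mem hwA _) _) (hmono (Finset.le_sup ?_) (hN i))
      exact Finset.mem_range.mpr (by omega)
    · subst hi
      rw [hp.coeff_natDegree, Nat.sub_self, pow_zero, mul_one]
      exact one_mem A
    · rw [Polynomial.coeff_eq_zero_of_natDegree_lt hi, zero_mul]
      exact zero_mem A
  have hl : (↑(p.scaleRoots (w ^ K)).coeffs : Set F) ⊆ A.toSubring := by
    intro c hc
    obtain ⟨i, -, rfl⟩ := Polynomial.mem_coeffs_iff.mp hc
    exact hcoef i
  refine ⟨(p.scaleRoots (w ^ K)).toSubring A.toSubring hl,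
    (Polynomial.monic_toSubring _ _ hl).mpr ((Polynomial.monic_scaleRoots_iff _).mpr hp), ?_⟩
  rw [← hroot, Polynomial.eval₂_eq_eval_map]
  exact congrArg (Polynomial.eval (w ^ K * x)) (Polynomial.map_toSubring _ _ hl)

end Fermat.Agent.ModField
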