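/-
The Gauss valuation on fractions of power series, and the reducedness criterion.
-/
import Fermat.Agent.Models.Field.ChartLemmas

set_option autoImplicit false
set_option linter.style.haveILetI false

noncomputable section

namespace Fermat.Agent.ModField

open Polynomial IsLocalRing
open Fermat.Agent.GalRep.Model (SeriesField chartRing mem_chartRing_iff FixedRational C_pi_prime
  C_pow_dvd_series_iff isIntegral_adjoin_iff self_mem_chartRing)

variable {O : Type} [CommRing O] [IsDomain O] [IsDiscreteValuationRing O] {π : O}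

local notation "↟" => algebraMap (PowerSeries O) (SeriesField O)

theorem exists_gauss_form (hπ : Irreducible π) {f : PowerSeries O} (hf : f ≠ 0) :
    ∃ (k : ℕ) (g : PowerSeries O), ¬ PowerSeries.C π ∣ g ∧ f = PowerSeries.C π ^ k * g := by
  classical
  obtain ⟨i, hi⟩ : ∃ i, PowerSeries.coeff i f ≠ 0 := by
    by_contra h
    push Not at h
    exact hf (PowerSeries.ext fun i => by rw [h i, map_zero])
  obtain ⟨n, u, hu⟩ := IsDiscreteValuationRing.eq_unit_mul_pow_irreducible hi hπ
  have hex : ∃ N, ¬ PowerSeries.C π ^ N ∣ f := by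
    refine ⟨n + 1, fun h => ?_⟩
    obtain ⟨r, hr⟩ := (C_pow_dvd_series_iff π (n + 1) f).mp h i
    rw [hu, pow_succ, mul_assoc, mul_comm (u : O) (π ^ n)] at hr
    exact hπ.not_isUnit (isUnit_of_dvd_unit ⟨r, mul_left_cancel₀ (pow_ne_zero n hπ.ne_zero) hr⟩
      u.isUnit)
  obtain ⟨k, hk⟩ : ∃ k, Nat.find hex = k + 1 := by
    refine Nat.exists_eq_succ_of_ne_zero fun h0 => ?_
    have := Nat.find_spec hex
    rw [h0, pow_zero] at this
    exact this (one_dvd _)
  obtain ⟨g, hg⟩ : PowerSeries.C π ^ k ∣ f := by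
    by_contra h
    have := Nat.find_min' hex h
    omega
  refine ⟨k, g, fun hd => ?_, hg⟩
  have := Nat.find_spec hex
  rw [hk, pow_succ, hg] at this
  exact this (mul_dvd_mul_left _ hd)

/-- The valuation ring of the Gauss valuation. -/
def gaussRing (hπ : Irreducible π) : ValuationSubring (SeriesField O) where
  carrier := {x | ∃ a b, ¬ PowerSeries.C π ∣ b ∧ x * ↟ b = ↟ a}
  zero_mem' := ⟨0, 1, fun h => (C_pi_prime hπ).not_unit (isUnit_of_dvd_one h), by simp⟩
  one_mem' := ⟨1, 1, fun h => (C_pi_prime hπ).not_unit (isUnit_of_dvd_one h), by simp⟩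
  add_mem' := by
    rintro x y ⟨a, b, hb, hx⟩ ⟨c, d, hd, hy⟩
    refine ⟨a * d + c * b, b * d, fun h => ((C_pi_prime hπ).dvd_or_dvd h).elim hb hd, ?_⟩
    rw [map_add, map_mul, map_mul, map_mul, ← hx, ← hy]
    ring
  mul_mem' := by
    rintro x y ⟨a, b, hb, hx⟩ ⟨c, d, hd, hy⟩
    refine ⟨a * c, b * d, fun h => ((C_pi_prime hπ).dvd_or_dvd h).elim hb hd, ?_⟩
    rw [map_mul, map_mul, ← hx, ← hy]
    ring
  neg_mem' := by
    rintro x ⟨a, b, hb, hx⟩
    exact ⟨-a, b, hb, by rw [map_neg, ← hx, neg_mul]⟩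
  mem_or_inv_mem' := by
    intro x
    obtain ⟨a, b, hb, rfl⟩ := IsFractionRing.div_surjective (A := PowerSeries O) x
    have hb0 : b ≠ 0 := nonZeroDivisors.ne_zero hb
    rcases eq_or_ne a 0 with rfl | ha
    · exact Or.inl ⟨0, 1, fun h => (C_pi_prime hπ).not_unit (isUnit_of_dvd_one h), by simp⟩
    obtain ⟨i, a', ha', rfl⟩ := exists_gauss_form hπ ha
    obtain ⟨j, b', hb', rfl⟩ := exists_gauss_form hπ hb0
    have hne : ∀ {f : PowerSeries O}, f ≠ 0 → ↟ f ≠ 0 := fun hf =>
      (map_ne_zero_iff _ (IsFractionRing.injective _ _)).mpr hf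
    have h1 : ↟ (PowerSeries.C π ^ j * b') ≠ 0 := hne hb0
    have h2 : ↟ (PowerSeries.C π ^ i * a') ≠ 0 := hne ha
    rcases le_total j i with h | h
    · obtain ⟨d, rfl⟩ := Nat.exists_eq_add_of_le h
      refine Or.inl ⟨PowerSeries.C π ^ d * a', b', hb', ?_⟩
      rw [div_mul_eq_mul_div, div_eq_iff h1, ← map_mul, ← map_mul]
      congr 1; ring
    · obtain ⟨d, rfl⟩ := Nat.exists_eq_add_of_le h
      refine Or.inr ⟨PowerSeries.C π ^ d * b', a', ha', ?_⟩
      rw [inv_div, div_mul_eq_mul_div, div_eq_iff h2, ← map_mul, ← map_mul]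
      congr 1; ring

theorem mem_gaussRing (hπ : Irreducible π) {x : SeriesField O} :
    x ∈ gaussRing hπ ↔ ∃ a b, ¬ PowerSeries.C π ∣ b ∧ x * ↟ b = ↟ a := Iff.rfl

theorem algebraMap_mem_gaussRing (hπ : Irreducible π) (f : PowerSeries O) : ↟ f ∈ gaussRing hπ :=
  ⟨f, 1, fun h => (C_pi_prime hπ).not_unit (isUnit_of_dvd_one h), by simp⟩

theorem mem_nonunits_gaussRing (hπ : Irreducible π) {x : SeriesField O} :
    x ∈ (gaussRing hπ).nonunits ↔
      ∃ a b, ¬ PowerSeries.C π ∣ b ∧ PowerSeries.C π ∣ a ∧ x * ↟ b = ↟ a := by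
  rw [ValuationSubring.mem_nonunits_iff]
  constructor
  · intro hx
    obtain ⟨a, b, hb, e⟩ := (mem_gaussRing hπ).mp
      (((gaussRing hπ).valuation_le_one_iff x).mp hx.le)
    refine ⟨a, b, hb, ?_, e⟩
    by_contra ha
    have hx0 : x ≠ 0 := by
      rintro rfl
      rw [zero_mul, eq_comm, map_eq_zero_iff _ (IsFractionRing.injective _ _)] at e
      exact ha (e ▸ dvd_zero _)
    have h1 : x⁻¹ ∈ gaussRing hπ :=
      ⟨b, a, ha, by rw [← e, ← mul_assoc, inv_mul_cancel₀ hx0, one_mul]⟩
    have h2 := ((gaussRing hπ).valuation_le_one_iff x⁻¹).mpr h1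
    rw [map_inv₀, inv_le_one₀ (zero_lt_iff.mpr ((gaussRing hπ).valuation.ne_zero_iff.mpr hx0))] at h2
    exact not_lt_of_ge h2 hx
  · rintro ⟨a, b, hb, ha, e⟩
    refine lt_of_le_of_ne (((gaussRing hπ).valuation_le_one_iff x).mpr ⟨a, b, hb, e⟩) fun h1 => ?_
    have hx0 : x ≠ 0 := fun h => by simp [h] at h1
    have hinv : x⁻¹ ∈ gaussRing hπ := by
      rw [← ValuationSubring.valuation_le_one_iff, map_inv₀, h1, inv_one]
    obtain ⟨c, d, hd, e'⟩ := (mem_gaussRing hπ).mp hinv
    have h2 : ↟ (a * c) = ↟ (b * d) := by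
      rw [map_mul, map_mul, ← e, ← e', show x * ↟ b * (x⁻¹ * ↟ d) = x * x⁻¹ * (↟ b * ↟ d) by ring,
        mul_inv_cancel₀ hx0, one_mul]
    have h3 : PowerSeries.C π ∣ b * d := by
      rw [← IsFractionRing.injective (PowerSeries O) (SeriesField O) h2]
      exact ha.mul_right c
    exact ((C_pi_prime hπ).dvd_or_dvd h3).elim hb hd

theorem uniformizer_gaussRing (hπ : Irreducible π) :
    ↟ (PowerSeries.C π) ∈ (gaussRing hπ).nonunits ∧
      ∀ x ∈ (gaussRing hπ).nonunits, x / ↟ (PowerSeries.C π) ∈ gaussRing hπ := by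
  refine ⟨(mem_nonunits_gaussRing hπ).mpr ⟨PowerSeries.C π, 1,
    fun h => (C_pi_prime hπ).not_unit (isUnit_of_dvd_one h), dvd_rfl, by simp⟩, fun x hx => ?_⟩
  obtain ⟨a, b, hb, ⟨c, rfl⟩, e⟩ := (mem_nonunits_gaussRing hπ).mp hx
  refine ⟨c, b, hb, ?_⟩
  rw [div_mul_eq_mul_div, e, map_mul, mul_div_cancel_left₀]
  exact (map_ne_zero_iff _ (IsFractionRing.injective _ _)).mpr
    fun h => hπ.ne_zero (by simpa using congrArg PowerSeries.constantCoeff h)

/-! ## Consequences on charts -/

variable {F : Type} [Field F] [Algebra O F] {w : F}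

/-- A valuation ring containing the base and the coordinate contains the chart. -/
theorem chartRing_le_valuationSubring (V : ValuationSubring F)
    (hO : ∀ a : O, algebraMap O F a ∈ V) (hw : w ∈ V) {x : F} (hx : x ∈ chartRing O w) : x ∈ V := by
  rw [mem_chartRing_iff, isIntegral_adjoin_iff] at hx
  obtain ⟨P, hP, hPx⟩ := hx
  let φ : O[X] →+* V := ((aeval w).toRingHom).codRestrict V.toSubring fun R => by
    induction R using Polynomial.induction_on' with
    | add p q hp hq => rw [map_add]; exact V.toSubring.add_mem hp hq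
    | monomial n a =>
      show aeval w (monomial n a) ∈ V.toSubring
      rw [aeval_monomial]
      exact V.toSubring.mul_mem (hO a) (V.toSubring.pow_mem hw n)
  have hint : IsIntegral V x := ⟨P.map φ, hP.map φ, by
    rw [Polynomial.eval₂_map]; exact hPx⟩
  obtain ⟨y, hy⟩ := IsIntegrallyClosed.isIntegral_iff.mp hint
  rw [← hy]
  exact y.2

variable {G : Type} [Group G] [Finite G] [MulSemiringAction G F] [SMulCommClass G O F]

/-- Vanishing on every translate of the Gauss place is divisibility by the uniformiser. -/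
theorem reduced_chart (hπ : Irreducible π) (hw : ∀ g : G, g • w = w)
    (htr : Function.Injective (aeval (R := O) w)) (hfix : FixedRational O G w)
    (ι : F →+* SeriesField O)
    (hιO : ∀ a, ι (algebraMap O F a) = ↟ (PowerSeries.C a))
    (hcentre : ∀ P : O[X], ι (aeval w P) ∈ (gaussRing hπ).nonunits → C π ∣ P)
    {x : F} (hx : x ∈ chartRing O w) (hall : ∀ g : G, ι (g • x) ∈ (gaussRing hπ).nonunits) :
    ∃ e ∈ chartRing O w, x = π • e := by
  classical
  haveI := Fintype.ofFinite G
  have hπ0 : algebraMap O F π ≠ 0 := fun h => hπ.ne_zero (by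
    have := congrArg ι h
    rw [hιO, map_zero, map_eq_zero_iff _ (IsFractionRing.injective _ _)] at this
    simpa using congrArg PowerSeries.constantCoeff this)
  set e := x / algebraMap O F π with he
  refine ⟨e, ?_, by rw [Algebra.smul_def, he, mul_div_cancel₀ _ hπ0]⟩
  let Φ : F[X] := ∏ g : G, (X - C (g • e))
  have hΦ : Φ.Monic := monic_prod_of_monic _ _ fun g _ => monic_X_sub_C _
  have hroot : Φ.eval e = 0 := by
    simp only [Φ, eval_prod, eval_sub, eval_X, eval_C]
    exact Finset.prod_eq_zero (Finset.mem_univ 1) (by rw [one_smul, sub_self])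
  have hinv : ∀ (h : G) (i : ℕ), h • Φ.coeff i = Φ.coeff i := fun h i => by
    have e1 : Φ.map (MulSemiringAction.toRingHom G F h) = Φ := by
      simp only [Φ, Polynomial.map_prod, Polynomial.map_sub, map_X, map_C,
        MulSemiringAction.toRingHom_apply, ← mul_smul]
      exact Fintype.prod_equiv (Equiv.mulLeft h) _ _ fun g => rfl
    conv_rhs => rw [← e1]
    rw [Polynomial.coeff_map]; rfl
  let V : ValuationSubring F := (gaussRing hπ).comap ι
  have hinV : ∀ g : G, g • e ∈ V := fun g => by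
    show ι (g • e) ∈ gaussRing hπ
    rw [he, div_eq_mul_inv, smul_mul', smul_inv'', smul_algebraMap', map_mul, map_inv₀, hιO,
      ← div_eq_mul_inv]
    exact (uniformizer_gaussRing hπ).2 _ (hall g)
  have hPV : ∀ i, Φ.coeff i ∈ V := fun i => by
    suffices h : Φ ∈ (mapRingHom V.subtype).range by
      obtain ⟨q, hq⟩ := h
      rw [← hq, coe_mapRingHom, Polynomial.coeff_map]
      exact (q.coeff i).2
    exact prod_mem fun g _ => sub_mem ⟨X, map_X _⟩ ⟨C ⟨_, hinV g⟩, map_C _⟩
  -- scaled coefficients lie in the chart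
  have hscale : ∀ i, algebraMap O F π ^ (Φ.natDegree - i) * Φ.coeff i ∈ chartRing O w := fun i => by
    have h1 : (Φ.scaleRoots (algebraMap O F π)).coeff i ∈ chartRing O w := by
      have h2 : Φ.scaleRoots (algebraMap O F π) = ∏ g : G, (X - C (g • x)) := by
        refine Polynomial.eq_of_monic_of_associated ((monic_scaleRoots_iff _).mpr hΦ)
          (monic_prod_of_monic _ _ fun g _ => monic_X_sub_C _) ?_
        have hs : ∀ g : G, (X - C (g • e)).scaleRoots (algebraMap O F π) = X - C (g • x) := fun g => by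
          rw [he, div_eq_mul_inv, smul_mul', smul_inv'', smul_algebraMap']
          ext k
          rw [coeff_scaleRoots, natDegree_X_sub_C, coeff_sub, coeff_sub, coeff_X, coeff_C, coeff_C]
          rcases k with _ | _ | k <;> simp [hπ0]
        refine Associated.of_eq ?_
        simp only [Φ]
        rw [← Finset.prod_congr rfl fun g _ => hs g]
        induction (Finset.univ : Finset G) using Finset.induction_on with
        | empty => simp
        | insert a s ha ih =>
          rw [Finset.prod_insert ha, Finset.prod_insert ha, ← ih,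
            mul_scaleRoots_of_noZeroDivisors]
      rw [h2]
      suffices h : (∏ g : G, (X - C (g • x))) ∈
          (mapRingHom (chartRing O w).val.toRingHom).range by
        obtain ⟨q, hq⟩ := h
        rw [← hq, coe_mapRingHom, Polynomial.coeff_map]
        exact (q.coeff i).2
      exact prod_mem fun g _ =>
        sub_mem ⟨X, map_X _⟩ ⟨C ⟨_, smul_mem_chart hw g hx⟩, map_C _⟩
    rwa [coeff_scaleRoots, mul_comm] at h1
  have hcoef : ∀ i, ∃ R : O[X], Φ.coeff i = aeval w R := fun i => by
    obtain ⟨R, hR⟩ := exists_eq_aeval_of_invariant htr hfix (hscale i) fun g => by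
      rw [smul_mul', smul_pow', smul_algebraMap', hinv]
    have key : ∀ (k : ℕ) (c : F), c ∈ V → ∀ R : O[X], algebraMap O F π ^ k * c = aeval w R →
        ∃ R' : O[X], c = aeval w R' := by
      intro k
      induction k with
      | zero => intro (c : F) _ (R : O[X]) hR; exact ⟨R, by rwa [pow_zero, one_mul] at hR⟩
      | succ k ih =>
        intro (c : F) hc (R : O[X]) (hR : algebraMap O F π ^ (k + 1) * c = aeval w R)
        have hnon : ι (aeval w R) ∈ (gaussRing hπ).nonunits := by
          obtain ⟨a, b, hb, e'⟩ := (mem_gaussRing hπ).mp (show ι c ∈ gaussRing hπ from hc)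
          refine (mem_nonunits_gaussRing hπ).mpr ⟨PowerSeries.C π ^ (k + 1) * a, b, hb,
            Dvd.dvd.mul_right (dvd_pow_self _ (Nat.succ_ne_zero k)) _, ?_⟩
          rw [← hR, map_mul, map_pow, hιO, mul_assoc, e', map_mul, map_pow]
        obtain ⟨R₁, rfl⟩ := hcentre R hnon
        refine ih c hc R₁ (mul_left_cancel₀ hπ0 ?_)
        rw [← mul_assoc, ← pow_succ', hR, map_mul, aeval_C]
    exact key _ _ (hPV i) R hR
  choose R hR using hcoef
  rw [mem_chartRing_iff, isIntegral_adjoin_iff]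
  let Q : O[X][X] := X ^ Φ.natDegree + ∑ i ∈ Finset.range Φ.natDegree, C (R i) * X ^ i
  refine ⟨Q, ?_, ?_⟩
  · refine monic_X_pow_add (lt_of_le_of_lt (degree_sum_le _ _) ?_)
    rw [Finset.sup_lt_iff (WithBot.bot_lt_coe _)]
    intro i hi
    exact lt_of_le_of_lt (degree_C_mul_X_pow_le i _) (by exact_mod_cast Finset.mem_range.mp hi)
  · simp only [Q, eval₂_add, eval₂_pow, eval₂_X, eval₂_finsetSum, eval₂_mul, eval₂_C,
      AlgHom.toRingHom_eq_coe, RingHom.coe_coe, ← hR]
    have h := hroot
    rw [eval_eq_sum_range, Finset.sum_range_succ, hΦ.coeff_natDegree, one_mul] at h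
    linear_combination h

end Fermat.Agent.ModField
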