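/-
The two charts of the level field over a discrete valuation ring: the model, the Gauss places at
the cusps, reducedness, transitivity on the components.
-/
import Fermat.Agent.Models.Field.Fld
import Fermat.Agent.Models.Field.Gauss
import Fermat.Agent.Models.DetectDefs
import Fermat.Agent.GalRep.KummerIntegral

set_option autoImplicit false
set_option linter.style.haveILetI false

noncomputable section

namespace Fermat.Agent.ModField

open UpperHalfPlane CongruenceSubgroup Polynomial IsLocalRing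
open Fermat.Agent.GalRep
open Fermat.Agent.GalRep.Level
open Fermat.Agent.GalRep.Model (SeriesField chartRing self_mem_chartRing mem_chartRing_iff
  C_pi_prime fg_chartRing polyVal coe_polyVal)
open scoped MatrixGroups

theorem expand_ofPowerSeries {a : ℕ} (ha : a ≠ 0) (P : PowerSeries ℂ) :
    expand a ha (HahnSeries.ofPowerSeries ℤ ℂ P) =
      HahnSeries.ofPowerSeries ℤ ℂ (PowerSeries.expand a ha P) := by
  ext m
  by_cases hm : (a : ℤ) ∣ m
  · obtain ⟨t, rfl⟩ := hm
    rw [expand_coeff_mul]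
    by_cases ht : ∃ k : ℕ, (k : ℤ) = t
    · obtain ⟨k, rfl⟩ := ht
      rw [HahnSeries.ofPowerSeries_apply_coeff, ← Nat.cast_mul,
        HahnSeries.ofPowerSeries_apply_coeff, PowerSeries.coeff_expand_mul]
    · rw [HahnSeries.ofPowerSeries_apply, HahnSeries.ofPowerSeries_apply,
        HahnSeries.embDomain_of_notMem_range, HahnSeries.embDomain_of_notMem_range]
      · rintro ⟨k, hk⟩
        exact ht ⟨k / a, by
          have h2 : (a : ℤ) * t = (k : ℤ) := hk.symm
          have ha' : (a : ℤ) ≠ 0 := by exact_mod_cast ha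
          rw [Int.natCast_div, ← h2, Int.mul_ediv_cancel_left _ ha']⟩
      · rintro ⟨k, hk⟩; exact ht ⟨k, hk⟩
  · rw [expand_coeff_of_not_dvd _ _ _ _ hm, HahnSeries.ofPowerSeries_apply]
    by_cases hk : ∃ k : ℕ, (k : ℤ) = m
    · obtain ⟨k, rfl⟩ := hk
      rw [← HahnSeries.ofPowerSeries_apply, HahnSeries.ofPowerSeries_apply_coeff,
        PowerSeries.coeff_expand_of_not_dvd a ha _ fun h => hm (Int.natCast_dvd_natCast.mpr h)]
    · rw [HahnSeries.embDomain_of_notMem_range]
      rintro ⟨k, hk'⟩; exact hk ⟨k, hk'⟩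

theorem expand_single' {a : ℕ} (ha : a ≠ 0) (k : ℤ) (c : ℂ) :
    expand a ha (HahnSeries.single k c) = HahnSeries.single ((a : ℤ) * k) c := by
  ext m
  by_cases hm : (a : ℤ) ∣ m
  · obtain ⟨t, rfl⟩ := hm
    rw [expand_coeff_mul]
    have ha' : (a : ℤ) ≠ 0 := by exact_mod_cast ha
    rcases eq_or_ne t k with rfl | ht
    · rw [HahnSeries.coeff_single_same, HahnSeries.coeff_single_same]
    · rw [HahnSeries.coeff_single_of_ne ht,
        HahnSeries.coeff_single_of_ne fun h => ht (mul_left_cancel₀ ha' h)]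
  · rw [expand_coeff_of_not_dvd _ _ _ _ hm,
      HahnSeries.coeff_single_of_ne fun h : m = (a : ℤ) * k => hm (h.symm ▸ dvd_mul_right _ _)]

variable {O : Type} [CommRing O] [IsDomain O] [IsDiscreteValuationRing O] {M : ℕ} [NeZero M]
  (E : Emb O M) {π : O}

local notation "↟" => algebraMap (PowerSeries O) (SeriesField O)

instance instSMulCommTransG : SMulCommClass (transG E) O (Fld E) := ⟨fun σ a x => by
  obtain ⟨g, hg⟩ := (mem_transG E).mp σ.2
  rw [Algebra.smul_def, Algebra.smul_def, transG_smul_def, transG_smul_def, hg, hg, map_mul,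
    fShift_algebraMap]⟩

theorem transG_smul_jF (σ : transG E) : σ • jF E = jF E := by
  obtain ⟨g, hg⟩ := (mem_transG E).mp σ.2
  rw [transG_smul_def, hg, fShift_jF]

theorem transG_smul_inv_jF (σ : transG E) : σ • (jF E)⁻¹ = (jF E)⁻¹ := by
  rw [smul_inv'', transG_smul_jF]

/-! ## The series of `j` -/

/-- The unit part of the series of `j`. -/
def jUnit : PowerSeries O :=
  PowerSeries.expand M (NeZero.ne M) (ModularCurve.jNum.map (Int.castRingHom O))

omit [IsDomain O] [IsDiscreteValuationRing O] in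
theorem constantCoeff_jUnit : PowerSeries.constantCoeff (jUnit (O := O) (M := M)) = 1 := by
  rw [jUnit, PowerSeries.constantCoeff_expand, ← PowerSeries.coeff_zero_eq_constantCoeff_apply,
    PowerSeries.coeff_map, PowerSeries.coeff_zero_eq_constantCoeff_apply,
    ModularCurve.constantCoeff_jNum, map_one]

omit [IsDiscreteValuationRing O] in
theorem serF_jF : serF E (jF E) * ↟ (PowerSeries.X ^ M) = ↟ (jUnit (O := O) (M := M)) := by
  apply E.toC.injective
  rw [map_mul, toC_serF, toLS_jF, E.toC_algebraMap, E.toC_algebraMap, jqN_eq, jq_eq_jqModC,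
    ModularCurve.jqModC, map_mul, expand_ofPowerSeries, expand_single']
  simp only [Emb.gO, RingHom.comp_apply, jUnit, PowerSeries.map_expand, map_pow, PowerSeries.map_X,
    HahnSeries.ofPowerSeries_X_pow]
  have h1 : PowerSeries.map E.φ (ModularCurve.jNum.map (Int.castRingHom O)) =
      ModularCurve.jNum.map (Int.castRingHom ℂ) := by ext k; simp
  rw [h1, mul_right_comm, HahnSeries.ofPowerSeries_X, HahnSeries.single_pow,
    HahnSeries.single_mul_single]
  simp

theorem isUnit_jUnit : IsUnit (jUnit (O := O) (M := M)) :=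
  PowerSeries.isUnit_iff_constantCoeff.mpr
    ((constantCoeff_jUnit (O := O) (M := M)).symm ▸ isUnit_one)

/-- A polynomial in `j` vanishing on the Gauss place is divisible by the uniformiser. -/
theorem centre_jF (hπ : Irreducible π) (P : O[X])
    (h : serF E (aeval (jF E) P) ∈ (gaussRing hπ).nonunits) : C π ∣ P := by
  classical
  by_contra hP
  rw [C_dvd_iff_dvd_coeff] at hP
  push Not at hP
  obtain ⟨i₀, hi₀⟩ := hP
  let S := (Finset.range (P.natDegree + 1)).filter fun i => ¬ π ∣ P.coeff i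
  have hS : S.Nonempty := ⟨i₀, Finset.mem_filter.mpr ⟨Finset.mem_range.mpr (by
    by_contra hlt
    exact hi₀ (by rw [coeff_eq_zero_of_natDegree_lt (by omega)]; exact dvd_zero π)), hi₀⟩⟩
  set d := S.max' hS
  obtain ⟨hdr, hd⟩ := Finset.mem_filter.mp (S.max'_mem hS)
  rw [Finset.mem_range] at hdr
  set D := P.natDegree
  set U := jUnit (O := O) (M := M)
  let s : PowerSeries O := ∑ i ∈ Finset.range (D + 1),
    PowerSeries.C (P.coeff i) * U ^ i * PowerSeries.X ^ (M * (D - i))
  have hs : serF E (aeval (jF E) P) * ↟ (PowerSeries.X ^ (M * D)) = ↟ s := by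
    rw [aeval_eq_sum_range, map_sum, Finset.sum_mul, map_sum]
    refine Finset.sum_congr rfl fun i hi => ?_
    have hiD : i ≤ D := Nat.lt_succ_iff.mp (Finset.mem_range.mp hi)
    rw [Algebra.smul_def, map_mul, map_pow, serF_algebraMap, map_mul, map_mul, map_pow ↟ U,
      ← serF_jF E, map_pow, map_pow, map_pow, mul_pow, ← pow_mul]
    have : M * D = M * i + M * (D - i) := by rw [← mul_add, Nat.add_sub_cancel' hiD]
    rw [this, pow_add]
    ring
  obtain ⟨a, b, hb, ha, e⟩ := (mem_nonunits_gaussRing hπ).mp h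
  have h2 : PowerSeries.C π ∣ s * b := by
    have e2 : s * b = a * PowerSeries.X ^ (M * D) := by
      refine IsFractionRing.injective (PowerSeries O) (SeriesField O) ?_
      rw [map_mul, ← hs, map_mul, ← e]
      ring
    rw [e2]
    exact ha.mul_right _
  rcases (C_pi_prime hπ).dvd_or_dvd h2 with h3 | h3
  swap
  · exact hb h3
  refine hd ?_
  have h4 := (Model.C_dvd_series_iff π s).mp h3 (M * (D - d))
  have hterm : ∀ i ∈ Finset.range (D + 1), i ≠ d →
      π ∣ PowerSeries.coeff (M * (D - d))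
        (PowerSeries.C (P.coeff i) * U ^ i * PowerSeries.X ^ (M * (D - i))) := fun i hi hne => by
    rw [mul_assoc, PowerSeries.coeff_C_mul]
    rcases lt_or_gt_of_ne hne with hlt | hgt
    · rw [PowerSeries.coeff_mul_X_pow', if_neg, mul_zero]
      · exact dvd_zero π
      · have := Finset.mem_range.mp hi
        have h5 : M * (D - d) < M * (D - i) := Nat.mul_lt_mul_of_pos_left (by omega) (NeZero.pos M)
        omega
    · refine Dvd.dvd.mul_right ?_ _
      by_contra hni
      have := S.le_max' i (Finset.mem_filter.mpr ⟨hi, hni⟩)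
      omega
  rw [map_sum, ← Finset.add_sum_erase _ _ (Finset.mem_range.mpr hdr)] at h4
  have h6 : π ∣ PowerSeries.coeff (M * (D - d))
      (PowerSeries.C (P.coeff d) * U ^ d * PowerSeries.X ^ (M * (D - d))) := by
    have h7 : π ∣ ∑ i ∈ (Finset.range (D + 1)).erase d, PowerSeries.coeff (M * (D - d))
        (PowerSeries.C (P.coeff i) * U ^ i * PowerSeries.X ^ (M * (D - i))) :=
      Finset.dvd_sum fun i hi => hterm i (Finset.mem_of_mem_erase hi) (Finset.ne_of_mem_erase hi)
    exact (dvd_add_left h7).mp h4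
  rwa [mul_assoc, PowerSeries.coeff_C_mul, PowerSeries.coeff_mul_X_pow', if_pos le_rfl, Nat.sub_self,
    PowerSeries.coeff_zero_eq_constantCoeff_apply, map_pow, constantCoeff_jUnit, one_pow,
    mul_one] at h6

omit [IsDiscreteValuationRing O] in
theorem serF_inv_jF :
    serF E (jF E)⁻¹ * ↟ (jUnit (O := O) (M := M)) = ↟ (PowerSeries.X ^ M) := by
  rw [← serF_jF E, ← mul_assoc, ← map_mul, inv_mul_cancel₀ (jF_ne_zero E), map_one, one_mul]

theorem serF_inv_jF_mem (hπ : Irreducible π) : serF E (jF E)⁻¹ ∈ gaussRing hπ :=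
  ⟨PowerSeries.X ^ M, jUnit, fun h => (C_pi_prime hπ).not_unit (isUnit_of_dvd_unit h isUnit_jUnit),
    serF_inv_jF E⟩

theorem serF_jF_mem (hπ : Irreducible π) : serF E (jF E) ∈ gaussRing hπ :=
  ⟨jUnit, PowerSeries.X ^ M, fun h => by
    have := (Model.C_dvd_series_iff π _).mp h M
    rw [PowerSeries.coeff_X_pow_self] at this
    exact hπ.not_isUnit (isUnit_of_dvd_one this),
    serF_jF E⟩

theorem centre_inv_jF (hπ : Irreducible π) (P : O[X])
    (h : serF E (aeval (jF E)⁻¹ P) ∈ (gaussRing hπ).nonunits) : C π ∣ P := by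
  have hj := jF_ne_zero E
  set D := P.natDegree
  have key : aeval (jF E) (P.reflect D) = jF E ^ D * aeval (jF E)⁻¹ P := by
    letI := invertibleOfNonzero (inv_ne_zero hj)
    have := Polynomial.eval₂_reflect_mul_pow (algebraMap O (Fld E)) (jF E)⁻¹ D P le_rfl
    rw [invOf_eq_inv, inv_inv] at this
    rw [Polynomial.aeval_def, Polynomial.aeval_def, ← this, inv_pow, mul_comm, mul_assoc,
      inv_mul_cancel₀ (pow_ne_zero _ hj), mul_one]
  have h1 : serF E (aeval (jF E) (P.reflect D)) ∈ (gaussRing hπ).nonunits := by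
    rw [key, map_mul, map_pow]
    obtain ⟨a, b, hb, ha, e⟩ := (mem_nonunits_gaussRing hπ).mp h
    obtain ⟨a', b', hb', e'⟩ := (mem_gaussRing hπ).mp (serF_jF_mem E hπ)
    refine (mem_nonunits_gaussRing hπ).mpr ⟨a' ^ D * a, b' ^ D * b, fun hdv =>
      ((C_pi_prime hπ).dvd_or_dvd hdv).elim (fun h => hb' ((C_pi_prime hπ).dvd_of_dvd_pow h)) hb,
      ha.mul_left _, ?_⟩
    rw [map_mul, map_mul, map_pow, map_pow, ← e, ← e', mul_pow]
    ring
  have h2 := centre_jF E hπ _ h1
  rw [C_dvd_iff_dvd_coeff] at h2 ⊢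
  intro i
  by_cases hi : i ≤ D
  · have := h2 (D - i)
    rwa [coeff_reflect, revAt_le (Nat.sub_le D i), Nat.sub_sub_self hi] at this
  · rw [coeff_eq_zero_of_natDegree_lt (by omega)]
    exact dvd_zero π

/-! ## The model -/

theorem exists_const_of_mem_both {x : Fld E} (h0 : x ∈ chartRing O (jF E))
    (h1 : x ∈ chartRing O (jF E)⁻¹) : ∃ c : O, algebraMap O (Fld E) c = x := by
  classical
  haveI := Fintype.ofFinite (transG E)
  set w := jF E with hw
  let Φ : (Fld E)[X] := ∏ g : transG E, (X - C (g • x))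
  have hΦ : Φ.Monic := monic_prod_of_monic _ _ fun g _ => monic_X_sub_C _
  have hmem : ∀ (v : Fld E) (hv : ∀ g : transG E, g • v = v), x ∈ chartRing O v →
      ∀ i, Φ.coeff i ∈ chartRing O v := fun v hv hx i => by
    suffices h : Φ ∈ (mapRingHom (chartRing O v).val.toRingHom).range by
      obtain ⟨q, hq⟩ := h
      rw [← hq, coe_mapRingHom, Polynomial.coeff_map]
      exact (q.coeff i).2
    exact prod_mem fun g _ => sub_mem ⟨X, map_X _⟩ ⟨C ⟨_, smul_mem_chart hv g hx⟩, map_C _⟩
  have hinv : ∀ (g : transG E) (i : ℕ), g • Φ.coeff i = Φ.coeff i := fun h i => by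
    have e1 : Φ.map (MulSemiringAction.toRingHom (transG E) (Fld E) h) = Φ := by
      simp only [Φ, Polynomial.map_prod, Polynomial.map_sub, map_X, map_C,
        MulSemiringAction.toRingHom_apply, ← mul_smul]
      exact Fintype.prod_equiv (Equiv.mulLeft h) _ _ fun g => rfl
    conv_rhs => rw [← e1]
    rw [Polynomial.coeff_map]; rfl
  have hcst : ∀ i, ∃ a : O, Φ.coeff i = algebraMap O (Fld E) a := fun i => by
    obtain ⟨P, hP⟩ := exists_eq_aeval_of_invariant (aeval_jF_injective E) (fixedRational_jF E)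
      (hmem _ (transG_smul_jF E) h0 i) fun g => hinv g i
    obtain ⟨Q, hQ⟩ := exists_eq_aeval_of_invariant (aeval_inv_jF_injective E)
      (fixedRational_inv_jF E) (hmem _ (transG_smul_inv_jF E) h1 i) fun g => hinv g i
    set D := Q.natDegree
    have key : aeval w (X ^ D * P) = aeval w (Q.reflect D) := by
      letI := invertibleOfNonzero (inv_ne_zero (jF_ne_zero E))
      have := Polynomial.eval₂_reflect_mul_pow (algebraMap O (Fld E)) w⁻¹ D Q le_rfl
      rw [invOf_eq_inv, inv_inv] at this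
      rw [map_mul, map_pow, aeval_X, ← hP, hQ, Polynomial.aeval_def, Polynomial.aeval_def, ← this,
        inv_pow, mul_comm, mul_assoc, inv_mul_cancel₀ (pow_ne_zero _ (jF_ne_zero E)), mul_one]
    have hPQ := aeval_jF_injective E key
    rcases eq_or_ne P 0 with rfl | hP0
    · exact ⟨0, by rw [hP, map_zero, map_zero]⟩
    · have hdeg : (X ^ D * P).natDegree ≤ D := by
        rw [hPQ]
        exact Polynomial.natDegree_le_iff_coeff_eq_zero.mpr fun k hk => by
          rw [coeff_reflect, revAt_eq_self_of_lt (by exact hk)]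
          exact coeff_eq_zero_of_natDegree_lt hk
      rw [natDegree_mul (pow_ne_zero _ X_ne_zero) hP0, natDegree_X_pow] at hdeg
      exact ⟨P.coeff 0, by rw [hP, eq_C_of_natDegree_eq_zero (by omega : P.natDegree = 0), aeval_C,
        coeff_C_zero]⟩
  choose a ha using hcst
  -- the series of `x` is constant
  let R : O[X] := X ^ Φ.natDegree + ∑ i ∈ Finset.range Φ.natDegree, C (a i) * X ^ i
  have hR : R.Monic := monic_X_pow_add (lt_of_le_of_lt (degree_sum_le _ _) (by
    rw [Finset.sup_lt_iff (WithBot.bot_lt_coe _)]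
    intro i hi
    exact lt_of_le_of_lt (degree_C_mul_X_pow_le i _) (by exact_mod_cast Finset.mem_range.mp hi)))
  have hRx : aeval x R = 0 := by
    have h : Φ.eval x = 0 := by
      simp only [Φ, eval_prod, eval_sub, eval_X, eval_C]
      exact Finset.prod_eq_zero (Finset.mem_univ 1) (by rw [one_smul, sub_self])
    rw [eval_eq_sum_range, Finset.sum_range_succ, hΦ.coeff_natDegree, one_mul] at h
    simp only [R, map_add, map_pow, aeval_X, map_sum, map_mul, aeval_C, ← ha]
    linear_combination h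
  obtain ⟨c, hc⟩ : ∃ c : ℂ, toLS E x = HahnSeries.C c := by
    have h2 : (R.map E.φ).eval₂ (HahnSeries.C : ℂ →+* LaurentSeries ℂ) (toLS E x) = 0 := by
      rw [eval₂_map, show (HahnSeries.C : ℂ →+* LaurentSeries ℂ).comp E.φ =
        (toLS E).comp (algebraMap O (Fld E)) from RingHom.ext fun b => (toLS_algebraMap E b).symm,
        ← Polynomial.hom_eval₂, ← aeval_def, hRx, map_zero]
    rw [(IsAlgClosed.splits (R.map E.φ)).eq_prod_roots_of_monic (hR.map _),
      eval₂_multiset_prod, Multiset.prod_eq_zero_iff, Multiset.mem_map] at h2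
    obtain ⟨y, hy, hy0⟩ := h2
    rw [Multiset.mem_map] at hy
    obtain ⟨r, -, rfl⟩ := hy
    rw [eval₂_sub, eval₂_X, eval₂_C, sub_eq_zero] at hy0
    exact ⟨r, hy0⟩
  have hcK : c ∈ E.K := by
    have := mem_kSer.mp (E.sFld_le (toLS_mem E x)) 0
    rw [hc] at this
    simpa using this
  obtain ⟨u, v, hv, rfl⟩ := exists_frac_of_mem E hcK
  have hv0 : algebraMap O (Fld E) v ≠ 0 := (map_ne_zero_iff _ (algebraMap_injective E)).mpr hv
  have hx : x = algebraMap O (Fld E) u / algebraMap O (Fld E) v := toLS_injective E (by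
    rw [hc, map_div₀, map_div₀, toLS_algebraMap, toLS_algebraMap])
  -- integral over the base
  let ι : FractionRing O →+* Fld E := IsFractionRing.lift (algebraMap_injective E)
  set z : FractionRing O := algebraMap O (FractionRing O) u / algebraMap O (FractionRing O) v
  have hι : ∀ b, ι (algebraMap O (FractionRing O) b) = algebraMap O (Fld E) b := fun b =>
    IsFractionRing.lift_algebraMap (algebraMap_injective E) b
  have hz : ι z = x := by
    rw [hx, map_div₀, hι, hι]
  have hint : IsIntegral O z := by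
    refine ⟨R, hR, ι.injective ?_⟩
    rw [map_zero, Polynomial.hom_eval₂, hz, show ι.comp (algebraMap O (FractionRing O)) =
      algebraMap O (Fld E) from RingHom.ext hι]
    exact hRx
  obtain ⟨b, hb⟩ := IsIntegrallyClosed.isIntegral_iff.mp hint
  exact ⟨b, by rw [← hz, ← hb, hι]⟩

instance instFaithfulTransG : FaithfulSMul (transG E) (Fld E) :=
  ⟨fun {σ τ} h => Subtype.ext (RingEquiv.ext fun x => h x)⟩

theorem isNoetherianRing_B₀ : IsNoetherianRing (chartRing O (jF E)) :=
  isNoetherianRing_chartRing (G := transG E) (aeval_jF_injective E) (fixedRational_jF E)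

theorem isNoetherianRing_B₁ : IsNoetherianRing (chartRing O (jF E)⁻¹) :=
  isNoetherianRing_chartRing (G := transG E) (aeval_inv_jF_injective E) (fixedRational_inv_jF E)

/-- The two-chart model of the level field. -/
def model : Models.Model O (Fld E) where
  w := jF E
  w_ne := jF_ne_zero E
  B₀ := chartRing O (jF E)
  B₁ := chartRing O (jF E)⁻¹
  B₀₁ := overlapRing O (jF E)
  le₀ := chartRing_le_overlap _
  le₁ := (chartRing_le_overlap _).trans (overlapRing_inv _).le
  w_mem := self_mem_chartRing _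
  w_inv_mem := self_mem_chartRing _
  loc₀ b hb := overlap_loc _ (jF_ne_zero E) hb
  loc₁ b hb := overlap_loc (O := O) (jF E)⁻¹ (inv_ne_zero (jF_ne_zero E))
    ((overlapRing_inv (O := O) (jF E)).symm ▸ hb)
  fg₀ := by
    obtain ⟨m, h, hh⟩ := fg_chartRing (G := transG E) (jF E) (aeval_jF_injective E)
      (fixedRational_jF E)
    refine ⟨m, fun i => (h i : Fld E), fun i => (h i).2, fun b hb => ?_⟩
    obtain ⟨Q, hQ⟩ := hh ⟨b, hb⟩
    refine ⟨Q, ?_⟩
    have := congrArg Subtype.val hQ
    simpa using this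
  closed₀ x hx := chartRing_closed _ hx
  closed₁ x hx := chartRing_closed _ hx
  closed₀₁ x hx := overlapRing_closed _ hx
  constants x h0 h1 := exists_const_of_mem_both E h0 h1

/-! ## The Gauss places -/

/-- The Gauss valuation ring at the cusp `δ ∞`. -/
def gaussP (hπ : Irreducible π) (δ : SL(2, ℤ)) : ValuationSubring (Fld E) :=
  (gaussRing hπ).comap (serAt E δ)

theorem mem_gaussP (hπ : Irreducible π) (δ : SL(2, ℤ)) {x : Fld E} :
    x ∈ gaussP E hπ δ ↔ serAt E δ x ∈ gaussRing hπ := Iff.rfl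

theorem mem_nonunits_gaussP (hπ : Irreducible π) (δ : SL(2, ℤ)) {x : Fld E} :
    x ∈ (gaussP E hπ δ).nonunits ↔ serAt E δ x ∈ (gaussRing hπ).nonunits := by
  have key : ∀ {K : Type} [Field K] (V : ValuationSubring K) (y : K),
      y ∈ V.nonunits ↔ y = 0 ∨ y⁻¹ ∉ V := fun {K} _ V y => by
    rw [ValuationSubring.mem_nonunits_iff, ← V.valuation_le_one_iff, not_le, map_inv₀]
    rcases eq_or_ne y 0 with rfl | hy
    · simp
    · rw [one_lt_inv₀ (zero_lt_iff.mpr (V.valuation.ne_zero_iff.mpr hy))]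
      simp [hy]
  rw [key, key, mem_gaussP, map_inv₀, map_eq_zero]

theorem serAt_algebraMap (δ : SL(2, ℤ)) (a : O) :
    serAt E δ (algebraMap O (Fld E) a) = ↟ (PowerSeries.C a) := by
  rw [serAt, RingHom.comp_apply, RingEquiv.toRingHom_eq_coe, RingEquiv.coe_toRingHom,
    fShift_algebraMap, serF_algebraMap]

theorem serAt_fShift (δ g : SL(2, ℤ)) (x : Fld E) :
    serAt E δ (fShift E g x) = serAt E (g * δ) x := by
  simp only [serAt, RingHom.comp_apply, RingEquiv.toRingHom_eq_coe, RingEquiv.coe_toRingHom,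
    fShift_fShift]

theorem fShift_mem_gaussP (hπ : Irreducible π) (δ g : SL(2, ℤ)) {x : Fld E} :
    fShift E g x ∈ gaussP E hπ δ ↔ x ∈ gaussP E hπ (g * δ) := by
  rw [mem_gaussP, mem_gaussP, serAt_fShift]

theorem serAt_jF (δ : SL(2, ℤ)) : serAt E δ (jF E) = serF E (jF E) := by
  rw [serAt, RingHom.comp_apply, RingEquiv.toRingHom_eq_coe, RingEquiv.coe_toRingHom, fShift_jF]

theorem chart_le_gaussP (hπ : Irreducible π) (δ : SL(2, ℤ)) :
    (∀ x ∈ chartRing O (jF E), x ∈ gaussP E hπ δ) ∧
      ∀ x ∈ chartRing O (jF E)⁻¹, x ∈ gaussP E hπ δ := by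
  have hO : ∀ a : O, algebraMap O (Fld E) a ∈ gaussP E hπ δ := fun a => by
    rw [mem_gaussP, serAt_algebraMap]; exact algebraMap_mem_gaussRing hπ _
  refine ⟨fun x hx => chartRing_le_valuationSubring _ hO ?_ hx,
    fun x hx => chartRing_le_valuationSubring _ hO ?_ hx⟩
  · rw [mem_gaussP, serAt_jF]; exact serF_jF_mem E hπ
  · rw [mem_gaussP, map_inv₀, serAt_jF, ← map_inv₀]; exact serF_inv_jF_mem E hπ

theorem uniformizer_gaussP (hπ : Irreducible π) (δ : SL(2, ℤ)) :
    algebraMap O (Fld E) π ∈ (gaussP E hπ δ).nonunits ∧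
      ∀ x ∈ (gaussP E hπ δ).nonunits, x / algebraMap O (Fld E) π ∈ gaussP E hπ δ := by
  refine ⟨?_, fun x hx => ?_⟩
  · rw [mem_nonunits_gaussP, serAt_algebraMap]; exact (uniformizer_gaussRing hπ).1
  · rw [mem_nonunits_gaussP] at hx
    rw [mem_gaussP, map_div₀, serAt_algebraMap]
    exact (uniformizer_gaussRing hπ).2 _ hx

theorem serF_smul_transG (hπ : Irreducible π) (σ : transG E) {x : Fld E}
    (h : ∀ g : SL(2, ℤ), x ∈ (gaussP E hπ g).nonunits) :
    serF E (σ • x) ∈ (gaussRing hπ).nonunits := by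
  obtain ⟨g, hg⟩ := (mem_transG E).mp σ.2
  have := h g
  rw [mem_nonunits_gaussP] at this
  rw [transG_smul_def, hg]
  simpa [serAt] using this

/-- The special fibres are reduced. -/
theorem reduced_model (hπ : Irreducible π) {x : Fld E}
    (h : ∀ g : SL(2, ℤ), x ∈ (gaussP E hπ g).nonunits) :
    (x ∈ chartRing O (jF E) → ∃ e ∈ chartRing O (jF E), x = π • e) ∧
      (x ∈ chartRing O (jF E)⁻¹ → ∃ e ∈ chartRing O (jF E)⁻¹, x = π • e) :=
  ⟨fun hx => reduced_chart hπ (transG_smul_jF E) (aeval_jF_injective E) (fixedRational_jF E)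
      (serF E) (serF_algebraMap E) (centre_jF E hπ) hx fun σ => serF_smul_transG E hπ σ h,
    fun hx => reduced_chart hπ (transG_smul_inv_jF E) (aeval_inv_jF_injective E)
      (fixedRational_inv_jF E) (serF E) (serF_algebraMap E) (centre_inv_jF E hπ) hx
      fun σ => serF_smul_transG E hπ σ h⟩

/-- The prime of a chart cut out by a Gauss place. -/
def gaussIdeal (hπ : Irreducible π) (δ : SL(2, ℤ)) (w : Fld E)
    (hw : ∀ x ∈ chartRing O w, x ∈ gaussP E hπ δ) : Ideal (chartRing O w) :=
  (IsLocalRing.maximalIdeal (gaussP E hπ δ)).comap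
    ((chartRing O w).val.toRingHom.codRestrict (gaussP E hπ δ).toSubring fun x => hw x x.2)

theorem mem_gaussIdeal (hπ : Irreducible π) (δ : SL(2, ℤ)) (w : Fld E)
    (hw : ∀ x ∈ chartRing O w, x ∈ gaussP E hπ δ) {b : chartRing O w} :
    b ∈ gaussIdeal E hπ δ w hw ↔ (b : Fld E) ∈ (gaussP E hπ δ).nonunits := by
  rw [gaussIdeal, Ideal.mem_comap, ValuationSubring.mem_nonunits_iff_exists_mem_maximalIdeal]
  exact ⟨fun h => ⟨_, h⟩, fun ⟨_, h⟩ => h⟩

theorem comap_gaussIdeal (hπ : Irreducible π) (δ : SL(2, ℤ)) (w : Fld E)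
    (hw : ∀ x ∈ chartRing O w, x ∈ gaussP E hπ δ)
    (hfix : ∀ g, fShift E g w = w)
    (hcentre : ∀ P : O[X], serF E (aeval w P) ∈ (gaussRing hπ).nonunits → C π ∣ P) :
    (gaussIdeal E hπ δ w hw).comap (polyHom w) = Ideal.span {C π} := by
  ext P
  rw [Ideal.mem_comap, mem_gaussIdeal, mem_nonunits_gaussP, coe_polyHom, Ideal.mem_span_singleton]
  have he : serAt E δ (aeval w P) = serF E (aeval w P) := by
    rw [serAt, RingHom.comp_apply, RingEquiv.toRingHom_eq_coe, RingEquiv.coe_toRingHom]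
    congr 1
    induction P using Polynomial.induction_on' with
    | add p q hp hq => rw [map_add, map_add, hp, hq]
    | monomial n a => rw [aeval_monomial, map_mul, map_pow, fShift_algebraMap, hfix]
  rw [he]
  refine ⟨hcentre P, fun ⟨R, hR⟩ => ?_⟩
  rw [← he, hR, map_mul, map_mul, aeval_C, serAt_algebraMap]
  obtain ⟨a, b, hb, e⟩ := (mem_gaussRing hπ).mp ((mem_gaussP E hπ δ).mp
    (hw _ (coe_polyHom w R ▸ (polyHom w R).2)))
  refine (mem_nonunits_gaussRing hπ).mpr ⟨PowerSeries.C π * a, b, hb, dvd_mul_right _ _, ?_⟩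
  rw [mul_assoc, e, map_mul]

end Fermat.Agent.ModField
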