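/-
Ratios of division differences in the field of level `Γ(M)`.
-/
import Fermat.Agent.Models.Field.Fld
import Fermat.Agent.GalRep.Model.LevelField

set_option autoImplicit false

noncomputable section

namespace Fermat.Agent.ModField

open UpperHalfPlane CongruenceSubgroup
open Fermat.Agent.GalRep
open Fermat.Agent.GalRep.Level
open scoped MatrixGroups

variable {O : Type} [CommRing O] [IsDomain O] {M : ℕ} [NeZero M] (E : Emb O M)

/-- The complex numbers as a base. -/
def cycComplex (M : ℕ) [NeZero M] : Model.Cyc ℂ M :=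
  ⟨RingHom.id ℂ, fun _ _ h => h, Model.zetaC M, rfl,
    isUnit_iff_ne_zero.mpr (Nat.cast_ne_zero.mpr (NeZero.ne M))⟩

/-- A ratio of two division differences as a modular function. -/
def quadMF (q : Model.Quad M) : MF M := Model.ratMF (cycComplex M) q

theorem coe_quadMF (q : Model.Quad M) : (quadMF q : ℍ → ℂ) = q.fn := rfl

theorem shift_quadMF (q : Model.Quad M) (g : SL(2, ℤ)) :
    shift M g (quadMF q) = quadMF (q.mul g) := Model.shift_ratMF (cycComplex M) q g

theorem serAlg_quadMF (q : Model.Quad M) : serAlg M (quadMF q) =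
    (HahnSeries.ofPowerSeries ℤ ℂ (Model.pSer M (Model.zetaC M) q.u -
        Model.pSer M (Model.zetaC M) q.t)) /
      (HahnSeries.ofPowerSeries ℤ ℂ (Model.pSer M (Model.zetaC M) q.u' -
        Model.pSer M (Model.zetaC M) q.t')) := by
  show serHom M (Model.ratMF (cycComplex M) q) = _
  rw [Model.serHom_ratMF, Model.qSer, map_div₀, Model.Cyc.toC_algebraMap,
    Model.Cyc.toC_algebraMap, Model.Cyc.gC, RingHom.comp_apply, RingHom.comp_apply, map_sub,
    map_sub, map_sub, map_sub, Model.map_pO, Model.map_pO, Model.map_pO, Model.map_pO]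
  simp [map_sub]

theorem quadMF_mem (q : Model.Quad M) : serAlg M (quadMF q) ∈ kSer E.K := by
  rw [serAlg_quadMF, map_sub, map_sub]
  exact E.sFld_le (div_mem (sub_mem (pSer_mem E _) (pSer_mem E _))
    (sub_mem (pSer_mem E _) (pSer_mem E _)))

/-- A ratio in the field. -/
def quadF (q : Model.Quad M) : Fld E := ofMF E (quadMF q) (quadMF_mem E q)

theorem fShift_quadF (g : SL(2, ℤ)) (q : Model.Quad M) :
    fShift E g (quadF E q) = quadF E (q.mul g) := by
  rw [quadF, ofMF, fShift_toFld]
  exact congrArg _ (Subtype.ext (shift_quadMF q g))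

end Fermat.Agent.ModField
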